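/-
S59, unit G: tame inertia in the matrices of a lift; a lift which is unipotent at a prime `r` where
the residual representation is unramified and `a_r² ≠ (r + 1)²` is unramified there.
-/
import Fermat.Agent.LL.Gen.Local

set_option autoImplicit false
set_option linter.style.haveILetI false

noncomputable section

open IsLocalRing
open Fermat.Agent.Galois (GQ)
open Fermat.Agent.Deform (Mat2 HasMatrix RHasMatrix mapHom MatCts)

namespace Fermat.Agent.R59

variable {A : Type} [CommRing A] [IsLocalRing A]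

/-- The tame relation in the matrices of a representation residually trivial on inertia. -/
theorem frob_mul_inertia [IsAdicComplete (maximalIdeal A) A] {r : GQ →* Mat2 A} (hc : MatCts r)
    {v : ℕ} (hv : v.Prime) (hvu : IsUnit (v : A)) {P : ValuationSubring (AlgebraicClosure ℚ)}
    (hP : P.LiesOverPrime v) {φ τ : GQ} (hφ : P.IsFrobeniusAt φ v)
    (hτ : τ ∈ P.inertiaSubgroupIn ℚ)
    (h1 : ∀ σ ∈ P.inertiaSubgroupIn ℚ, ∀ i j, (r σ - 1) i j ∈ maximalIdeal A) :
    r φ * r τ = r τ ^ v * r φ := by
  set w := φ * τ * φ⁻¹ * (τ ^ v)⁻¹ with hw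
  have hwI : w ∈ P.inertiaSubgroupIn ℚ := by
    obtain ⟨τ', hτ', hττ⟩ := hτ
    obtain ⟨hdec, -⟩ := id hφ
    have hn : (P.inertiaSubgroup ℚ).Normal := MonoidHom.normal_ker _
    let φ' : P.decompositionSubgroup ℚ := ⟨φ, hdec⟩
    have hmem : φ' * τ' * φ'⁻¹ * (τ' ^ v)⁻¹ ∈ P.inertiaSubgroup ℚ :=
      mul_mem (hn.conj_mem _ hτ' φ') (inv_mem (pow_mem hτ' _))
    have hmap := Subgroup.mem_map_of_mem (P.decompositionSubgroup ℚ).subtype hmem
    rw [map_mul, map_mul, map_mul, map_inv, map_inv, map_pow, hττ] at hmap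
    exact hmap
  have hrel : r w = 1 := by
    refine sub_eq_zero.mp (Matrix.ext fun i j => ?_)
    refine IsHausdorff.haus (I := maximalIdeal A) (M := A) inferInstance _ fun k => ?_
    rw [SModEq.zero, smul_eq_mul, Ideal.mul_top]
    obtain ⟨L, hL, hLc⟩ := hc k
    let F := IntermediateField.normalClosure ℚ L (AlgebraicClosure ℚ)
    haveI : Normal ℚ (AlgebraicClosure ℚ) := IsGalois.to_normal
    haveI : Normal ℚ F := normalClosure.normal ℚ _ _
    haveI : IsGalois ℚ F := ⟨⟩
    obtain ⟨jj, hj⟩ := Galois.tame_relation hv hP hφ hτ F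
    have hpw : ∀ i j, (r w ^ v ^ jj - 1) i j ∈ maximalIdeal A ^ k := by
      rw [← map_pow]
      exact hLc _ fun x hx => hj x (IntermediateField.le_normalClosure _ hx)
    exact LL.sub_one_mem_of_pow (m := v ^ jj) (by rw [Nat.cast_pow]; exact hvu.pow jj)
      (h1 w hwI) hpw i j
  rw [← map_pow, ← map_mul, ← map_mul]
  calc r (φ * τ) = r (w * (τ ^ v * φ)) := by congr 1; rw [hw]; group
    _ = r (τ ^ v * φ) := by rw [map_mul, hrel, one_mul]

/-- A square-zero matrix commuting with Frobenius up to the factor `v` vanishes. -/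
theorem eq_zero_of_frob_rel {F E : Mat2 A} {c : A} (h : F * E = c • (E * F))
    (hd : IsUnit F.det) (hc : IsUnit (1 - c))
    (hs : IsUnit (F.trace ^ 2 * c - F.det * (1 + c) ^ 2)) : E = 0 := by
  have hF : F * F = F.trace • F - F.det • (1 : Mat2 A) := by
    ext i j
    fin_cases i <;> fin_cases j <;>
      simp [Matrix.mul_apply, Fin.sum_univ_two, Matrix.trace_fin_two, Matrix.det_fin_two] <;> ring
  set t := F.trace
  set d := F.det
  have e1 : (t * c) • (E * F) = (d * (1 + c)) • E := by
    have h2 : F * F * E = (c * c) • (E * (F * F)) := by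
      rw [mul_assoc, h, Matrix.mul_smul, ← mul_assoc, h, Matrix.smul_mul, smul_smul, mul_assoc]
    rw [hF, sub_mul, Matrix.smul_mul, h, Matrix.smul_mul, one_mul, mul_sub, Matrix.mul_smul,
      Matrix.mul_smul, mul_one] at h2
    have h3 : (1 - c) • ((t * c) • (E * F) - (d * (1 + c)) • E) = 0 := by
      linear_combination (norm := module) h2
    exact sub_eq_zero.mp (hc.smul_eq_zero.mp h3)
  have e2 : (t * c) • (t • (E * F) - d • E) = (d * (1 + c)) • (E * F) := by
    have := congrArg (· * F) e1
    simp only [Matrix.smul_mul, mul_assoc E F F, hF, mul_sub, Matrix.mul_smul, mul_one] at this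
    exact this
  have e3 : (d * (t ^ 2 * c - d * (1 + c) ^ 2)) • E = 0 := by
    have h4 := congrArg (fun Z => (t * c) • Z) e2
    linear_combination (norm := module) h4 - (t ^ 2 * c - d * (1 + c)) • e1
  exact (hd.mul hs).smul_eq_zero.mp e3

variable {k : Type} [Field k]

/-- Residually the matrices of a lift are those of the residual representation. -/
theorem exists_lifting_matrix {ρ : GaloisRepAdic A} {ρbar : ResidualGaloisRep k}
    {ψ : k →+* ResidueField A} (hres : ρ.residual.IsEquiv (ρbar.baseChangeAlong ψ))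
    {R : GQ →* Mat2 k} (hR : RHasMatrix ρbar R) :
    ∃ r, HasMatrix ρ r ∧ ∀ σ, (r σ).map (residue A) = (R σ).map ψ := by
  obtain ⟨r, hr, hrR⟩ := Deform.exists_hasMatrix_lifting ρ (hR.baseChangeAlong ψ) hres
  exact ⟨r, hr, fun σ => hrR σ⟩

/-- **Unipotent inertia is trivial away from the level raising congruence.** -/
theorem isUnramifiedAt_of_unipotent [IsAdicComplete (maximalIdeal A) A] {ρ : GaloisRepAdic A}
    {ρbar : ResidualGaloisRep k} {ψ : k →+* ResidueField A}
    (hres : ρ.residual.IsEquiv (ρbar.baseChangeAlong ψ)) {v : ℕ} (hv : v.Prime) {t : k}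
    (hun : ρbar.IsUnramifiedAt v)
    (hfrob : ∀ P : ValuationSubring (AlgebraicClosure ℚ), P.LiesOverPrime v →
      ∀ σ : GQ, P.IsFrobeniusAt σ v → LinearMap.charpoly (ρbar.ρ σ) = Polynomial.X ^ 2 -
        Polynomial.C t * Polynomial.X + Polynomial.C (v : k))
    (h0 : (v : k) ≠ 0) (h1 : (v : k) ≠ 1) (hne : t ^ 2 ≠ ((v : k) + 1) ^ 2)
    (hunip : ρ.IsUnipotentOnInertiaAt v) : ρ.IsUnramifiedAt v := by
  intro P hP τ hτ
  obtain ⟨φ, hφ⟩ := Galois.exists_isFrobeniusAt hv hP
  let b := Module.finBasisOfFinrankEq k ρbar.V ρbar.finrank_eq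
  set R : GQ →* Mat2 k :=
    MonoidHom.comp (LinearMap.toMatrixAlgEquiv b).toMulEquiv.toMonoidHom ρbar.ρ with hRdef
  obtain ⟨r, hr, hrR⟩ := exists_lifting_matrix hres (show RHasMatrix ρbar R from ⟨b, fun σ => rfl⟩)
  obtain ⟨bas, hbas⟩ := id hr
  have hres' : ∀ {x : A}, residue A x ≠ 0 → IsUnit x := fun {x} hx => by
    by_contra hxu
    exact hx ((residue_eq_zero_iff x).mpr hxu)
  have hI : ∀ σ ∈ P.inertiaSubgroupIn ℚ, ∀ i j, (r σ - 1) i j ∈ maximalIdeal A := by
    intro σ hσ i j
    rw [← residue_eq_zero_iff, Matrix.sub_apply, map_sub, sub_eq_zero]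
    have h := congrFun (congrFun (hrR σ) i) j
    rw [Matrix.map_apply] at h
    rw [h, hRdef, MonoidHom.comp_apply, hun P hP σ hσ, map_one, Matrix.map_apply]
    rcases eq_or_ne i j with rfl | hij
    · simp
    · simp [Matrix.one_apply_ne hij]
  have hvu : IsUnit (v : A) := hres' (by
    rw [map_natCast, ← map_natCast ψ]
    exact fun h => h0 (ψ.injective (h.trans (map_zero ψ).symm)))
  set E := r τ - 1 with hE
  have hE2 : E * E = 0 := by
    have h := hunip P hP τ hτ
    rw [← LinearMap.charpoly_toMatrix (ρ.ρ τ) bas, hbas] at h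
    have h2 := Matrix.aeval_self_charpoly (r τ)
    rw [h] at h2
    simpa [sq] using h2
  have hpow : ∀ n : ℕ, r τ ^ n = 1 + (n : A) • E := fun n => by
    induction n with
    | zero => simp
    | succ n ih =>
      rw [pow_succ (r τ) n, ih, show r τ = 1 + E from by rw [hE]; abel, mul_add, mul_one, add_mul,
        one_mul, Matrix.smul_mul, hE2, smul_zero, add_zero, Nat.cast_succ, add_smul, one_smul,
        add_assoc]
  have hrel := frob_mul_inertia hr.matCts hv hvu hP hφ hτ hI
  rw [hpow, show r τ = 1 + E from by rw [hE]; abel, mul_add, mul_one, add_mul, one_mul,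
    Matrix.smul_mul] at hrel
  have hchar : residue A (r φ).trace = ψ t ∧ residue A (r φ).det = ψ (v : k) := by
    have hc := hfrob P hP φ hφ
    rw [← LinearMap.charpoly_toMatrix (ρbar.ρ φ) b] at hc
    have hc' : (R φ).charpoly = Polynomial.X ^ 2 - Polynomial.C t * Polynomial.X +
        Polynomial.C (v : k) := hc
    rw [Matrix.charpoly_fin_two] at hc'
    have ht := congrArg (fun Q => Polynomial.coeff Q 1) hc'
    have hd := congrArg (fun Q => Polynomial.coeff Q 0) hc'
    simp [Polynomial.coeff_X_pow, Polynomial.coeff_X] at ht hd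
    constructor
    · have h := congrArg Matrix.trace (hrR φ)
      simp only [Matrix.trace_fin_two, Matrix.map_apply] at h
      rw [← ht, Matrix.trace_fin_two, map_add, h]
      simp [Matrix.trace_fin_two]
    · rw [← hd, RingHom.map_det, RingHom.map_det]
      congr 1
      exact hrR φ
  obtain ⟨ht, hd⟩ := hchar
  have hE0 : E = 0 := eq_zero_of_frob_rel (add_left_cancel hrel)
    (hres' (by rw [hd]; exact fun h => h0 (ψ.injective (h.trans (map_zero ψ).symm))))
    (hres' (by
      rw [map_sub, map_one, map_natCast, ← map_natCast ψ, ← map_one ψ, ← map_sub]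
      exact fun h => h1 (sub_eq_zero.mp (ψ.injective (h.trans (map_zero ψ).symm))).symm))
    (hres' (by
      rw [map_sub, map_mul, map_mul, map_pow, map_pow, ht, hd, map_add, map_one, map_natCast,
        ← map_natCast ψ, ← map_one ψ, ← map_add, ← map_pow, ← map_pow, ← map_mul, ← map_mul,
        ← map_sub]
      refine fun h => hne (sub_eq_zero.mp ((mul_eq_zero.mp
        (show (v : k) * (t ^ 2 - ((v : k) + 1) ^ 2) = 0 from ?_)).resolve_left h0))
      linear_combination ψ.injective (h.trans (map_zero ψ).symm)))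
  refine (LinearMap.toMatrix bas bas).injective ?_
  rw [hbas, LinearMap.toMatrix_one, ← sub_eq_zero]
  exact hE0

end Fermat.Agent.R59
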