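/-
S59, unit G: the representations of the level data as lifts with their local conditions.
-/
import Fermat.Agent.R59.Defs
import Fermat.Agent.R59.Levels.Defs
import Fermat.Agent.R59.Min.AuxUnramified
import Fermat.Agent.GalRep.Cyclo

set_option autoImplicit false
set_option linter.style.haveILetI false

noncomputable section

open IsLocalRing
open Fermat.Agent.Galois (GQ)
open Fermat.Agent.Deform (Mat2 HasMatrix RHasMatrix mapHom)

namespace Fermat.Agent.R59

/-- Ordinarity is read on matrices. -/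
theorem isOrdinaryAt_of_matrix {A : Type} [CommRing A] [IsLocalRing A] {ρ : GaloisRepAdic A} {p : ℕ}
    (h : ∀ P : ValuationSubring (AlgebraicClosure ℚ), P.LiesOverPrime p →
      ∃ r : GQ →* Mat2 A, HasMatrix ρ r ∧ (∀ σ ∈ P.decompositionSubgroup ℚ, r σ 1 0 = 0) ∧
        ∀ σ ∈ P.inertiaSubgroupIn ℚ, r σ 1 1 = 1) : ρ.IsOrdinaryAt p := by
  intro P hP
  obtain ⟨r, ⟨b, hb⟩, hlow, hun⟩ := h P hP
  have hline : ∀ v : ρ.V, b.repr v 1 = 0 → v ∈ A ∙ b 0 := fun v hv => by
    rw [← b.sum_repr v, Fin.sum_univ_two, hv, zero_smul, add_zero]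
    exact Submodule.smul_mem _ _ (Submodule.mem_span_singleton_self _)
  have hval : ∀ σ i j, r σ i j = b.repr (ρ.ρ σ (b j)) i := fun σ i j => by
    rw [← hb, LinearMap.toMatrix_apply]
  refine ⟨A ∙ b 0, ⟨b, rfl⟩, fun σ hσ v hv => ?_, fun σ hσ v => ?_⟩
  · obtain ⟨c, rfl⟩ := Submodule.mem_span_singleton.mp hv
    rw [map_smul]
    exact Submodule.smul_mem _ _ (hline _ (by rw [← hval, hlow σ hσ]))
  · refine hline _ ?_
    obtain ⟨τ, -, hττ⟩ := id hσ
    rw [← b.sum_repr v]
    simp only [Fin.sum_univ_two, map_add, map_smul, map_sub, Finsupp.add_apply, Finsupp.sub_apply,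
      Finsupp.smul_apply, ← hval, b.repr_self, hlow σ (hττ ▸ τ.2), hun σ hσ, smul_eq_mul]
    simp

/-- Ordinarity of the residual representation does not depend on the coefficient field. -/
theorem residual_ordinary {A : Type} [CommRing A] [IsLocalRing A] {k : Type} [Field k] {p : ℕ}
    {ρbar : ResidualGaloisRep k} {ρ : GaloisRepAdic A} (ψ : k →+* ResidueField A)
    (hres : ρ.residual.IsEquiv (ρbar.baseChangeAlong ψ))
    (h : (GaloisRepAdic.ofResidualGaloisRep ρbar).IsOrdinaryAt p) :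
    (GaloisRepAdic.ofResidualGaloisRep ρ.residual).IsOrdinaryAt p := by
  refine isOrdinaryAt_of_matrix fun P hP => ?_
  obtain ⟨L, ⟨b, rfl⟩, hD, hI⟩ := h P hP
  let r₀ : GQ →* Mat2 k := (LinearMap.toMatrixAlgEquiv b).toMonoidHom.comp ρbar.ρ
  have h₀ : RHasMatrix ρbar r₀ := ⟨b, fun _ => rfl⟩
  obtain ⟨b', hb'⟩ := (h₀.baseChangeAlong ψ).of_equiv (hres.map fun e => e.symm)
  have hval : ∀ σ j, r₀ σ 1 j = b.repr (ρbar.ρ σ (b j)) 1 := fun σ j =>
    LinearMap.toMatrix_apply b b (ρbar.ρ σ) 1 j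
  have hline : ∀ v ∈ k ∙ b 0, b.repr v 1 = 0 := fun v hv => by
    obtain ⟨c, rfl⟩ := Submodule.mem_span_singleton.mp hv
    simp
  refine ⟨(mapHom ψ).comp r₀, ⟨b', hb'⟩, fun σ hσ => ?_, fun σ hσ => ?_⟩
  · show ψ (r₀ σ 1 0) = 0
    rw [hval]
    exact (congrArg ψ (hline _ (hD σ hσ _ (Submodule.mem_span_singleton_self _)))).trans (map_zero ψ)
  · show ψ (r₀ σ 1 1) = 1
    rw [hval]
    have h := hline _ (hI σ hσ (b 1))
    rw [map_sub, Finsupp.sub_apply, b.repr_self, Finsupp.single_eq_same, sub_eq_zero] at h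
    exact (congrArg ψ h).trans (map_one ψ)

variable {p : ℕ} [Fact p.Prime] {O : Type} [CommRing O] [IsDomain O] [IsDiscreteValuationRing O]
  [IsAdicComplete (maximalIdeal O) O] [Finite (ResidueField O)]
  [Algebra ℤ_[p] O] [Module.Finite ℤ_[p] O] [CharZero O]
  {ρbar : ResidualGaloisRep (ResidueField O)} {N : ℕ} [NeZero N] {U aux S Q : Finset ℕ} {a : ℕ → O}
  {ord : Bool}
  {T : Type} [CommRing T] [IsLocalRing T] [Algebra O T] [IsLocalHom (algebraMap O T)]
  [IsNoetherianRing T] [IsAdicComplete (maximalIdeal T) T] [Module.Finite O T]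
  {ρ : GaloisRepAdic T}

omit [IsNoetherianRing T] [IsAdicComplete (maximalIdeal T) T] [Module.Finite O T] in
theorem detIsCyclotomic_of_repAt (hp : (p : O) ∈ maximalIdeal O)
    (h : Levels.RepAt p O ρbar N S Q ρ) : ρ.DetIsCyclotomic p := by
  refine ⟨by rw [← map_natCast (algebraMap O T)]; exact map_nonunit _ _ hp, fun n σ a ha => ?_⟩
  rw [h.det_eq]
  rcases Nat.eq_zero_or_pos n with rfl | hn
  · simp
  haveI : NeZero (p ^ n) := ⟨pow_ne_zero _ (Fact.out : p.Prime).ne_zero⟩
  obtain ⟨ζ, hζ⟩ := HasEnoughRootsOfUnity.exists_primitiveRoot (AlgebraicClosure ℚ) (p ^ n)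
  have h1 : ((GalRep.cyc p σ : ℤ_[p]) - (a : ℤ_[p])).toZModPow n = 0 := by
    rw [map_sub, map_natCast, GalRep.toZModPow_cyc_eq p σ hn.ne' hζ (ha ζ hζ.pow_eq_one), sub_self]
  rw [← RingHom.mem_ker, PadicInt.ker_toZModPow] at h1
  have h2 := Ideal.mem_map_of_mem ((algebraMap O T).comp (algebraMap ℤ_[p] O)) h1
  rw [Ideal.map_span, Set.image_singleton, map_pow, map_natCast, map_sub, map_natCast] at h2
  rw [Nat.cast_pow]
  exact h2

/-- The lift of a level. -/
def repLift (hp : (p : O) ∈ maximalIdeal O) (h : Levels.RepAt p O ρbar N S Q ρ) : Lift p O ρbar where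
  R := T
  residue_surjective := h.residue_surjective
  ρ := ρ
  residual := h.residual
  adjoin_trace := top_unique (h.adjoin_trace.ge.trans (Algebra.adjoin_mono
    (by rintro _ ⟨l, -, -, -, A, -, σ, -, rfl⟩; exact ⟨σ, rfl⟩)))
  det_cyclotomic := detIsCyclotomic_of_repAt hp h

/-- The local conditions of the lift of a level. -/
theorem repLift_cond (H : Seed p O ρbar N U aux S a ord) (h : Levels.RepAt p O ρbar N S Q ρ) :
    (repLift H.p_mem_maximal h).Cond (U ∪ Q) U ord where
  unramified l hl hlp hlR := by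
    rw [Finset.mem_union, not_or] at hlR
    by_cases hlN : l ∣ N
    · have haux : l ∈ aux := ((H.dvd_iff l hl hlp).mp hlN).resolve_left hlR.1
      obtain ⟨-, -, hl1, hla⟩ := H.mem_aux l haux
      have hne := (residue O).isUnit_map hla
      haveI : CharP (ResidueField O) p := (CharP.charP_iff_prime_eq_zero Fact.out).mpr (by
        rw [← map_natCast (residue O), residue_eq_zero_iff]; exact H.p_mem_maximal)
      refine isUnramifiedAt_of_unipotent h.residual hl (H.unramified l hl hlp hlR.1)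
        (fun P hP σ hσ => H.charpoly_frob l hl hlp hlR.1 P hP σ hσ) ?_ ?_ ?_
        (h.unipotent l hl hlp hlN fun h2 => hl.not_isUnit (H.squarefree l (pow_two l ▸ h2)))
      · rw [Ne, CharP.cast_eq_zero_iff (ResidueField O) p,
          Nat.prime_dvd_prime_iff_eq Fact.out hl]
        exact Ne.symm hlp
      · rw [← Nat.cast_one, Ne, CharP.natCast_eq_natCast (ResidueField O) p]
        exact hl1
      · simpa [sub_eq_zero] using hne.ne_zero
    · exact h.unramified l hl hlp hlN hlR.2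
  unipotent l hl :=
    h.unipotent l (H.mem_U l hl).1 (H.mem_U l hl).2.1
      ((H.dvd_iff l (H.mem_U l hl).1 (H.mem_U l hl).2.1).mpr (.inl hl))
      fun h2 => (H.mem_U l hl).1.not_isUnit (H.squarefree l (pow_two l ▸ h2))
  flat ho := h.flat fun hd => by simp [H.p_dvd_iff.mp hd] at ho
  ordinary ho := h.ordinary (H.p_dvd_iff.mpr ho)
    (fun h2 => (Fact.out : p.Prime).not_isUnit (H.squarefree p (pow_two p ▸ h2)))
    (residual_ordinary _ h.residual (H.ordinary ho))

end Fermat.Agent.R59
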