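/-
S59, unit G: an ordinary lift of a residual representation which is not flat is strictly ordinary.
-/
import Fermat.Agent.R59.Phi.Bridge
import Fermat.Prelude.Def_GaloisRep_StrictOrdinary

set_option autoImplicit false
set_option linter.style.haveILetI false

noncomputable section

open IsLocalRing
open Fermat.Agent.Galois (GQ)
open Fermat.Agent.Deform (Mat2 mapHom HasMatrix)

namespace Fermat.Agent.R59

/-- **Ordinary and residually not flat implies strictly ordinary.** -/
theorem isStrictOrdinaryAt_of_not_flat {p : ℕ} [Fact p.Prime] {A : Type} [CommRing A]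
    [IsLocalRing A] [IsNoetherianRing A] [IsAdicComplete (maximalIdeal A) A]
    {k : Type} [Field k] [Finite k] {ρbar : ResidualGaloisRep k}
    (hnf : ¬ (GaloisRepAdic.ofResidualGaloisRep ρbar).IsFlatAt p) {ρ : GaloisRepAdic A}
    (ψ : k →+* ResidueField A) (hψ : Function.Surjective ψ)
    (hres : ρ.residual.IsEquiv (ρbar.baseChangeAlong ψ)) (ho : ρ.IsOrdinaryAt p)
    (hd : ρ.DetIsCyclotomic p) : ρ.IsStrictOrdinaryAt p := by
  refine ⟨hd.1, fun P hP => ?_⟩
  obtain ⟨r, hr, hord⟩ := Phi.exists_ordAt ho hd hP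
  haveI : Finite (ResidueField A) := Finite.of_surjective ψ hψ
  have hnfl := Phi.not_flatLev_maximal hnf hr ψ hψ hres
  have hsq : ∀ σ ∈ P.decompositionSubgroup ℚ, r σ 1 1 ^ 2 = 1 := by
    intro σ hσ
    refine sub_eq_zero.mp (IsHausdorff.haus (I := maximalIdeal A) (M := A) inferInstance _ fun n => ?_)
    rw [SModEq.zero, smul_eq_mul, Ideal.mul_top]
    rcases Nat.eq_zero_or_pos n with rfl | hn
    · simp
    set I := maximalIdeal A ^ n with hI
    have hIm : I ≤ maximalIdeal A := Ideal.pow_le_self (by omega)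
    haveI : Nontrivial (A ⧸ I) :=
      Ideal.Quotient.nontrivial_iff.mpr (ne_top_of_le_ne_top (maximalIdeal.isMaximal A).ne_top hIm)
    haveI : Finite (A ⧸ I) := finite_quotient_iff.mpr ⟨n, le_rfl⟩
    let q : A →+* A ⧸ I := Ideal.Quotient.mk I
    haveI : IsLocalRing (A ⧸ I) := IsLocalRing.of_surjective' q Ideal.Quotient.mk_surjective
    have hcom : (maximalIdeal (A ⧸ I)).comap q = maximalIdeal A := by
      haveI : ((maximalIdeal (A ⧸ I)).comap q).IsMaximal :=
        Ideal.comap_isMaximal_of_surjective q Ideal.Quotient.mk_surjective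
      exact IsLocalRing.eq_maximalIdeal inferInstance
    have hq : Phi.OrdAt p P ((mapHom q).comp r) :=
      { liesOver := hP
        low := fun τ hτ => by
          show q (r τ 1 0) = 0
          rw [hord.low τ hτ, map_zero]
        unram := fun τ hτ => by
          show q (r τ 1 1) = 1
          rw [hord.unram τ hτ, map_one]
        cts := fun J hJ => by
          haveI := hJ
          haveI : Finite (A ⧸ J.comap q) :=
            Finite.of_injective (Ideal.quotientMap J q le_rfl) Ideal.quotientMap_injective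
          obtain ⟨L, hL, hL'⟩ := hord.cts (J.comap q) inferInstance
          refine ⟨L, hL, fun τ hτ => ?_⟩
          ext i j
          have h1 := congrFun (congrFun (hL' τ hτ) i) j
          have h2 := congrArg (Ideal.quotientMap J q le_rfl) h1
          refine Eq.trans (Eq.trans ?_ h2) ?_
          · exact (Ideal.quotientMap_mk (I := J) (f := q) (H := le_rfl)).symm
          · rcases eq_or_ne i j with rfl | hij
            · simp
            · simp [Matrix.one_apply_ne hij]
        det := fun m τ a ha => by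
          have h1 := Ideal.mem_map_of_mem q (hord.det m τ a ha)
          rw [Ideal.map_span, Set.image_singleton, map_natCast, map_sub, map_natCast,
            RingHom.map_det] at h1
          exact h1 }
    haveI : Finite ((A ⧸ I) ⧸ maximalIdeal (A ⧸ I)) := Finite.of_surjective _ Ideal.Quotient.mk_surjective
    have h := Phi.sq_unram_eq_one hq (by rw [← map_natCast q, ← Ideal.mem_comap, hcom]; exact hd.1)
      (by rw [Phi.flatLev_map_iff q Ideal.Quotient.mk_surjective, hcom]; exact hnfl) hσ
    have h' : q (r σ 1 1) ^ 2 = 1 := h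
    rwa [← Ideal.Quotient.eq_zero_iff_mem, map_sub, map_pow, map_one, sub_eq_zero]
  obtain ⟨b, hb⟩ := id hr
  have hval : ∀ σ i j, r σ i j = b.repr (ρ.ρ σ (b j)) i := fun σ i j => by
    rw [← hb, LinearMap.toMatrix_apply]
  have hline : ∀ v : ρ.V, b.repr v 1 = 0 → v ∈ A ∙ b 0 := fun v hv => by
    rw [← b.sum_repr v, Fin.sum_univ_two, hv, zero_smul, add_zero]
    exact Submodule.smul_mem _ _ (Submodule.mem_span_singleton_self _)
  have hcol : ∀ σ ∈ P.decompositionSubgroup ℚ, ρ.ρ σ (b 0) = r σ 0 0 • b 0 := fun σ hσ => by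
    refine b.ext_elem fun i => ?_
    rw [map_smul, Finsupp.smul_apply, b.repr_self, ← hval]
    fin_cases i
    · simp
    · simp [hord.low σ hσ]
  have hz : ∀ σ ∈ P.decompositionSubgroup ℚ, ∀ v : ρ.V,
      ρ.ρ σ v - r σ 1 1 • v ∈ A ∙ b 0 := fun σ hσ v => by
    refine hline _ ?_
    rw [← b.sum_repr v]
    simp only [Fin.sum_univ_two, map_add, map_smul, map_sub, Finsupp.add_apply, Finsupp.sub_apply,
      Finsupp.smul_apply, ← hval, b.repr_self, hord.low σ hσ, smul_eq_mul]
    simp [mul_comm]
  refine ⟨A ∙ b 0, ⟨b, rfl⟩, fun σ hσ v hv => ?_, fun σ hσ v => ?_, fun σ hσ => ?_⟩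
  · obtain ⟨c, rfl⟩ := Submodule.mem_span_singleton.mp hv
    rw [map_smul, hcol σ hσ]
    exact Submodule.smul_mem _ _ (Submodule.smul_mem _ _ (Submodule.mem_span_singleton_self _))
  · obtain ⟨τ, -, hττ⟩ := id hσ
    have h := hz σ (hττ ▸ τ.2) v
    rwa [hord.unram σ hσ, one_smul] at h
  · refine ⟨r σ 0 0, r σ 1 1, fun w hw => ?_, hz σ hσ, fun n a ha => ?_⟩
    · obtain ⟨c, rfl⟩ := Submodule.mem_span_singleton.mp hw
      rw [map_smul, hcol σ hσ, smul_comm]
    · have h1 := Ideal.mul_mem_left _ (r σ 1 1) (hord.det n σ a ha)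
      rw [Matrix.det_fin_two, hord.low σ hσ] at h1
      convert h1 using 1
      linear_combination (-(r σ 0 0)) * hsq σ hσ
  
end Fermat.Agent.R59
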