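/-
S59, unit G: Taylor-Wiles primes bounding the generators of every trace-generated minimal lift.

The bound is that of `TW56`; for a trace-generated lift rigidity is direct (a tangent vector whose
cocycle is a coboundary kills every trace), and an ordinary lift of a residual representation which
is not flat is strictly ordinary.
-/
import Fermat.Agent.R59.Defs
import Fermat.Agent.R59.Min.Strict
import Fermat.Agent.GD.TW56.Main

set_option autoImplicit false
set_option linter.style.haveILetI false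

noncomputable section

open IsLocalRing
open Fermat.Agent.Galois (GQ)
open Fermat.Agent.Deform (Mat2 HasMatrix RHasMatrix)

namespace Fermat.Agent.R59

variable {p : ℕ} [Fact p.Prime] {O : Type} [CommRing O] [IsDomain O] [IsDiscreteValuationRing O]
  [IsAdicComplete (maximalIdeal O) O] [Finite (ResidueField O)]
  [Algebra ℤ_[p] O] [Module.Finite ℤ_[p] O] [CharZero O]
  {ρbar : ResidualGaloisRep (ResidueField O)} {N : ℕ} [NeZero N] {U aux S : Finset ℕ} {a : ℕ → O}
  {ord : Bool}

variable {M : Type} [AddCommGroup M] [DistribMulAction GQ M]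

local instance instLDGenerators (v : GD.Place) : DistribMulAction (GD.LD v).G M :=
  inferInstanceAs (DistribMulAction (GD.decomp v) M)

omit [IsDomain O] [IsDiscreteValuationRing O] [IsAdicComplete (maximalIdeal O) O]
  [Finite (ResidueField O)] [Algebra ℤ_[p] O] [Module.Finite ℤ_[p] O] [CharZero O] in
theorem charP_residue {R : Type} [CommRing R] [IsLocalRing R] (hp : (p : R) ∈ maximalIdeal R) :
    CharP (ResidueField R) p :=
  (CharP.charP_iff_prime_eq_zero Fact.out).mpr (by
    rw [← map_natCast (residue R), residue_eq_zero_iff]; exact hp)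

/-- A tangent vector of a trace-generated lift whose cocycle is a coboundary vanishes. -/
theorem eq_zero_of_coboundary_trace (Y : Lift p O ρbar) {π : Y.R →+* ResidueField O}
    {r : GQ →* Mat2 Y.R} (hr : HasMatrix Y.ρ r) {R : GQ →* Mat2 (ResidueField O)}
    (hR : ∀ σ, (r σ).map π = R σ) (D : TW56.tanGroup O π) (m : Mat2 (ResidueField O))
    (hm : ∀ σ, (TW56.toTan D).cocycle r R σ = R σ * m * R σ⁻¹ - m) : D = 0 := by
  refine Subtype.ext (AddMonoidHom.ext fun t => ?_)
  have htr : ∀ σ, D.1 (r σ).trace = 0 := fun σ => by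
    show (TW56.toTan D).D (r σ).trace = 0
    rw [LL.Tan.D_trace (r := r) (R := R), hm, sub_mul, mul_assoc (R σ * m), ← map_mul,
      inv_mul_cancel, map_one, mul_one, Matrix.trace_sub, Matrix.trace_mul_comm, sub_self]
  have ht : t ∈ Algebra.adjoin O (Set.range Y.ρ.trace) := Y.adjoin_trace ▸ Algebra.mem_top
  induction ht using Algebra.adjoin_induction with
  | mem s hs =>
    obtain ⟨σ, rfl⟩ := hs
    rw [Deform.HasMatrix.trace_eq hr σ]
    exact htr σ
  | algebraMap o => exact D.2.2 o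
  | add s s' _ _ hs hs' => rw [map_add, hs, hs']; exact add_zero _
  | mul s s' _ _ hs hs' =>
    rw [D.2.1, hs, hs']
    show π s * (0 : ResidueField O) + (0 : ResidueField O) * π s' = (0 : ResidueField O)
    rw [mul_zero, zero_mul, add_zero]

/-- Auxiliary primes bounding the generators. -/
theorem exists_tw_generators (H : Seed p O ρbar N U aux S a ord) :
    ∃ r : ℕ, ∀ n : ℕ, ∃ Q : Finset ℕ, Q.card = r ∧
      (∀ v ∈ Q, v.Prime ∧ v ∉ S ∧ v ≡ 1 [MOD p ^ (n + 1)] ∧ residue O (a v) ^ 2 ≠ 4) ∧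
      ∀ Y : Lift p O ρbar, Y.Cond (U ∪ Q) U ord →
        ∃ γ : MvPowerSeries (Fin r) O →ₐ[O] Y.R, Function.Surjective γ := by
  classical
  have hp : p.Prime := Fact.out
  haveI : CharP (ResidueField O) p := charP_residue H.p_mem_maximal
  let b := Module.finBasisOfFinrankEq (ResidueField O) ρbar.V ρbar.finrank_eq
  set R : GQ →* Mat2 (ResidueField O) := residMat ρbar b with hRdef
  have h : TW.TWHyp p R := H.twHyp b
  have hbar : RHasMatrix ρbar R := ⟨b, fun σ => rfl⟩
  let S₀ : Finset Nat.Primes := S.subtype Nat.Prime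
  have hmemS : ∀ q : Nat.Primes, q ∈ S₀ ↔ (q : ℕ) ∈ S := fun q => Finset.mem_subtype
  have hUS : ∀ l ∈ U, l ∈ S := fun l hl =>
    H.level_mem l (H.mem_U l hl).1 ((H.dvd_iff l (H.mem_U l hl).1 (H.mem_U l hl).2.1).mpr (.inl hl))
  have hpS₀ : (⟨p, Fact.out⟩ : Nat.Primes) ∈ S₀ := (hmemS _).mpr H.p_mem
  have hunr : ∀ q : Nat.Primes, q ∉ S₀ → ∀ A : ValuationSubring (AlgebraicClosure ℚ),
      A.LiesOverPrime (q : ℕ) → ∀ σ ∈ A.inertiaSubgroupIn ℚ, R σ = 1 := fun q hq A hA σ hσ => by
    have hqS : (q : ℕ) ∉ S := fun h => hq ((hmemS q).mpr h)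
    have hqp : (q : ℕ) ≠ p := fun e => hqS (e ▸ H.p_mem)
    rw [hRdef, residMat, MonoidHom.comp_apply,
      H.unramified q q.2 hqp (fun h => hqS (hUS q h)) A hA σ hσ, map_one]
  obtain ⟨T₀, hST, r, -, hr'⟩ := GD.exists_taylorWiles_selmer H.p_ne_two h S₀ hpS₀ hunr 0
  obtain ⟨N₀, hN₀, -, hN₀R⟩ := GD.exists_level_ker hpS₀ R
    (by obtain ⟨F, hF, hF'⟩ := h.finite_level; exact ⟨F, hF, hF'⟩) hunr
  refine ⟨r, fun n => ?_⟩
  obtain ⟨Q, hQc, hQd, hQP, hbound⟩ := hr' n
  have hQ' : ∀ q ∈ Q, (q : ℕ) ∉ S := fun q hq hmem =>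
    Finset.disjoint_left.mp hQd hq (hST ((hmemS q).mpr hmem))
  refine ⟨Q.image fun q : Nat.Primes => (q : ℕ), (Finset.card_image_of_injective _ fun x y hxy => Subtype.ext hxy).trans hQc, fun v hv => ?_, fun Y hY => ?_⟩
  · obtain ⟨q, hq, rfl⟩ := Finset.mem_image.mp hv
    obtain ⟨hdvd, hfrob⟩ := hQP q hq
    have hmod : (q : ℕ) ≡ 1 [MOD p ^ (n + 1)] :=
      ((Nat.modEq_iff_dvd' q.2.one_le).mpr hdvd).symm
    refine ⟨q.2, hQ' q hq, hmod, fun h4 => ?_⟩
    obtain ⟨A, hA⟩ := Galois.exists_liesOverPrime q.2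
    obtain ⟨φ, hφ⟩ := Galois.exists_isFrobeniusAt q.2 hA
    obtain ⟨α, β, hab, hc⟩ := hfrob A hA φ hφ
    have hc2 := (LinearMap.charpoly_toMatrix (ρbar.ρ φ) b).symm.trans hc
    rw [H.charpoly_frob q q.2 (fun e => hQ' q hq (e ▸ H.p_mem)) (fun hU => hQ' q hq (hUS q hU))
      A hA φ hφ] at hc2
    have h1 : (q : ResidueField O) = 1 := by
      rw [← Nat.cast_one, CharP.natCast_eq_natCast (ResidueField O) p]
      exact hmod.of_dvd (dvd_pow_self p (Nat.succ_ne_zero n))
    have e1 := congrArg (fun P => Polynomial.coeff P 1) hc2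
    have e0 := congrArg (fun P => Polynomial.coeff P 0) hc2
    simp [Polynomial.coeff_X_pow, Polynomial.coeff_X, Polynomial.coeff_one, sub_mul, mul_sub, h1] at e0 e1
    refine hab (sub_eq_zero.mp (mul_self_eq_zero.mp ?_))
    linear_combination h4 + 4 * e0 + (residue O (a q) + α + β) * e1
  · set Q' := Q.image fun q : Nat.Primes => (q : ℕ) with hQ'def
    have X : TW56.TWData p R (insert p U) r T₀ Q N₀ :=
      ⟨fun q hq => hST ((hmemS q).mpr ((Finset.mem_insert.mp hq).elim (fun e => e ▸ H.p_mem)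
        (hUS _))), hQd, GD.isLevel_mono hST hN₀, hN₀R, hbound⟩
    have hram : ∀ l ∈ insert p U, l ≠ p → ¬ ρbar.IsUnramifiedAt l := fun l hl hlp =>
      (H.mem_U l ((Finset.mem_insert.mp hl).resolve_left hlp)).2.2.2
    have hunrY : ∀ q : Nat.Primes, (q : ℕ) ∉ insert p U → q ∉ Q → Y.ρ.IsUnramifiedAt q := by
      intro q h1 h2
      refine hY.unramified q q.2 (fun e => h1 (e ▸ Finset.mem_insert_self p U)) fun hm => ?_
      rcases Finset.mem_union.mp hm with h | h
      · exact h1 (Finset.mem_insert_of_mem h)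
      · obtain ⟨q', hq', he⟩ := Finset.mem_image.mp h
        exact h2 (Subtype.ext he ▸ hq')
    obtain ⟨πa⟩ := Deform.exists_resMap (A := Y.R) inferInstance Y.residue_surjective
    set ψ := ResidueField.map (algebraMap O Y.R) with hψ
    have hψs : Function.Surjective ψ := fun y => by
      obtain ⟨o, ho⟩ := Y.residue_surjective y
      exact ⟨residue O o, by rw [hψ, ResidueField.map_residue]; exact ho⟩
    obtain ⟨m, hm, hmR⟩ := Deform.exists_hasMatrix_lifting Y.ρ (hbar.baseChangeAlong ψ) Y.residual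
    have hR : ∀ σ, (m σ).map (πa : Y.R →+* ResidueField O) = R σ := fun σ => by
      ext i j
      refine ψ.injective ?_
      show ψ (πa (m σ i j)) = _
      rw [hψ, ← Deform.residue_eq_map_resMap πa]
      exact congrFun (congrFun (hmR σ) i) j
    have hπ0 : ∀ t ∈ maximalIdeal Y.R, (πa : Y.R →+* ResidueField O) t = 0 := fun t ht =>
      (Deform.mem_maximal_iff_resMap πa).mp ht
    have hN₀T := GD.isLevel_mono (T' := T₀ ∪ Q) Finset.subset_union_left X.isLevel
    have hsm : ∀ v, (GD.LD v).Smooth (GD.Ad0 R) := GD.smooth_local (T := T₀ ∪ Q) hN₀T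
      fun s hs x => GD.Ad0.smul_eq_self (X.fixed s hs) x
    have hcond : ∀ q : Nat.Primes, (q : ℕ) = p → ∃ Lp : AddSubgroup ((GD.LD (some q)).Z1 (GD.Ad0 R)),
        ((GD.LD (some q)).B1 (GD.Ad0 R)).addSubgroupOf ((GD.LD (some q)).Z1 (GD.Ad0 R)) ≤ Lp ∧
        GD.cardClasses (GD.Ad0 R) (some q) Lp ≤
          Nat.card ((GD.LD (some q)).fixed (GD.Ad0 R)) * Nat.card (ResidueField O) ∧
        ∀ (D : TW56.tanGroup O (πa : Y.R →+* ResidueField O))
          (x : (GD.LD (some q)).Z1 (GD.Ad0 R)),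
          (∀ d : GD.decomp (some q), GD.Ad0.mat (x.1 d) = (TW56.toTan D).cocycle m R d) →
            x ∈ Lp := by
      intro q hq
      cases ord with
      | false =>
        exact TW56.exists_flat_cond H.p_ne_two h (hY.flat rfl) Y.det_cyclotomic
          (fun o => show (πa : Y.R →+* ResidueField O) (algebraMap O Y.R o) = residue O o from
            πa.commutes o) hm hR hq (hsm _)
      | true =>
        exact TW56.exists_ordinary_cond H.p_ne_two h
          (isStrictOrdinaryAt_of_not_flat (H.not_flat rfl) ψ hψs Y.residual (hY.ordinary rfl)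
            Y.det_cyclotomic) Y.det_cyclotomic hm hR hq (hsm _)
    choose Lp hB hcard hmem using hcond
    let L : ∀ q : Nat.Primes, AddSubgroup ((GD.LD (some q)).Z1 (GD.Ad0 R)) := fun q =>
      if hq : (q : ℕ) = p then Lp q hq else ⊤
    have hLeq : ∀ (q : Nat.Primes) (hq : (q : ℕ) = p), L q = Lp q hq := fun q hq => dif_pos hq
    obtain ⟨hfin, hle⟩ := TW56.card_tanGroup_le H.p_ne_two hbar h (insert p U)
      (Finset.mem_insert_self p U) hram T₀ Q X.mem_of_mem X.disjoint X.isLevel X.fixed X.bound hm hR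
      Y.det_cyclotomic hunrY
      (fun l hl _ hlp => hY.unipotent l ((Finset.mem_insert.mp hl).resolve_left hlp)) hπ0
      (fun D c hc => eq_zero_of_coboundary_trace Y hm hR D c hc)
      L (fun q hq => (hB q hq).trans_eq (hLeq q hq).symm)
      (fun q hq _ => (hLeq q hq).symm ▸ hcard q hq)
      (fun q hq D x hx => (hLeq q hq).symm ▸ hmem q hq D x hx)
    exact TW56.exists_surjective_of_card πa hle

end Fermat.Agent.R59
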