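/-
S59, unit D: eigenvectors and eigenfunctionals of a separated point of a faithful lattice have the
same positive rank.
-/
import Fermat.Agent.R59.Crit.Defs
import Mathlib.LinearAlgebra.FreeModule.PID
import Mathlib.LinearAlgebra.FreeModule.Finite.Matrix
import Mathlib.LinearAlgebra.Dual.Lemmas

set_option autoImplicit false
set_option linter.style.haveILetI false

noncomputable section

namespace Fermat.Agent.R59

variable {O R : Type} [CommRing O] [IsDomain O] [IsPrincipalIdealRing O] [CommRing R] [Algebra O R]
  (g : R →ₐ[O] O) (M : Type) [AddCommGroup M] [Module O M] [Module R M] [IsScalarTower O R M]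
  [Module.Finite O M] [Module.Free O M]

/-- Equality of the two ranks. -/
theorem finrank_eigen_eq_coEigen (hsep : ∃ r : R, g r ≠ 0 ∧ ∀ x : R, g x = 0 → r * x = 0) :
    Module.finrank O (eigen g M) = Module.finrank O (coEigen g M) := by
  haveI : Module.Finite O (eigen g M) := inferInstance
  haveI : Module.Free O (eigen g M) := inferInstance
  haveI : Module.Free O (Module.Dual O M) :=
    Module.Free.of_basis (Module.Free.chooseBasis O M).dualBasis
  haveI : Module.Finite O (coEigen g M) := inferInstance
  haveI : Module.IsTorsionFree O (coEigen g M) :=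
    Function.Injective.moduleIsTorsionFree _ (coEigen g M).injective_subtype
      fun c f => map_smul (coEigen g M).subtype c f
  haveI : Module.Free O (coEigen g M) :=
    @Module.free_of_finite_type_torsion_free' O _ (coEigen g M) _ _ _ _ _ _
  obtain ⟨r, hr, hrx⟩ := hsep
  have hker : ∀ (x : R) (m : M), r • (x • m) = g x • (r • m) := fun x m => by
    have h := hrx (x - algebraMap O R (g x)) (by
      rw [map_sub, AlgHom.commutes, Algebra.algebraMap_self, RingHom.id_apply, sub_self])
    rw [mul_sub, sub_eq_zero] at h
    rw [smul_smul, h, mul_comm, mul_smul, algebraMap_smul]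
  have hmem : ∀ m, r • m ∈ eigen g M := fun m x => by
    rw [smul_comm, hker]
  have hcomem : ∀ h : Module.Dual O M,
      h ∘ₗ (Algebra.lsmul O O M r) ∈ coEigen g M := fun h x m => by
    show h (r • (x • m)) = g x * h (r • m)
    rw [hker, map_smul, smul_eq_mul]
  have hsm : ∀ (m : M), m ∈ eigen g M → r • m = g r • m := fun m hm => hm r
  refine le_antisymm ?_ ?_
  · refine le_trans (LinearMap.finrank_le_finrank_of_injective
      (f := pairingMap g M) ((injective_iff_map_eq_zero _).mpr fun m hm => Subtype.ext ?_))
      (le_of_eq ?_)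
    swap; · exact Module.finrank_linearMap_self O O (coEigen g M)
    refine (smul_eq_zero.mp ?_).resolve_left hr
    rw [← hsm _ m.2, ← Module.forall_dual_apply_eq_zero_iff O]
    exact fun h => LinearMap.congr_fun hm ⟨_, hcomem h⟩
  · let P : coEigen g M →ₗ[O] Module.Dual O (eigen g M) :=
      (eigen g M).subtype.dualMap ∘ₗ (coEigen g M).subtype
    refine le_trans (LinearMap.finrank_le_finrank_of_injective (f := P)
      ((injective_iff_map_eq_zero _).mpr fun f hf => Subtype.ext (LinearMap.ext fun m => ?_)))
      (le_of_eq ?_)
    swap; · exact Module.finrank_linearMap_self O O (eigen g M)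
    refine (mul_eq_zero.mp ?_).resolve_left hr
    rw [← f.2 r m]
    exact LinearMap.congr_fun hf ⟨_, hmem m⟩

/-- At a separated point of a faithful lattice the eigenfunctionals do not vanish. -/
theorem finrank_coEigen_pos (hsep : ∃ r : R, g r ≠ 0 ∧ ∀ x : R, g x = 0 → r * x = 0)
    (hfaith : Module.annihilator R M = ⊥) : 0 < Module.finrank O (coEigen g M) := by
  haveI : Module.Finite O (eigen g M) := inferInstance
  haveI : Module.Free O (eigen g M) := inferInstance
  rw [← finrank_eigen_eq_coEigen g M hsep]
  obtain ⟨r, hr, hrx⟩ := hsep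
  have hr0 : r ≠ 0 := fun h => hr (by rw [h, map_zero])
  obtain ⟨m, hm⟩ : ∃ m : M, r • m ≠ 0 := by
    by_contra h
    simp only [not_exists, not_not] at h
    exact hr0 ((Submodule.mem_bot R).mp (hfaith ▸ Module.mem_annihilator.mpr h))
  have hmem : r • m ∈ eigen g M := fun x => by
    have h := hrx (x - algebraMap O R (g x)) (by
      rw [map_sub, AlgHom.commutes, Algebra.algebraMap_self, RingHom.id_apply, sub_self])
    rw [mul_sub, sub_eq_zero] at h
    rw [smul_smul, mul_comm, h, mul_comm, mul_smul, algebraMap_smul]
  haveI : Nontrivial (eigen g M) :=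
    ⟨⟨⟨_, hmem⟩, 0, fun h => hm (congrArg Subtype.val h)⟩⟩
  exact Module.finrank_pos

end Fermat.Agent.R59
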