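/-
S59, unit C1a: the minimal system.

The representation over the localised Hecke algebra at level `N` (`Levels.exists_baseData`) cut down
to its image on the residual part, with its local conditions; the point comes from an integral
eigenfunctional on the lattice.
-/
import Fermat.Agent.R59.Levels.SeedPart

set_option autoImplicit false
set_option linter.style.haveILetI false
set_option linter.unusedVariables false

open IsLocalRing

namespace Fermat.Agent.R59

variable {p : ℕ} [Fact p.Prime] {O : Type} [CommRing O] [IsDomain O] [IsDiscreteValuationRing O]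
  [IsAdicComplete (maximalIdeal O) O] [Finite (ResidueField O)]
  [Algebra ℤ_[p] O] [Module.Finite ℤ_[p] O] [CharZero O]
  {ρbar : ResidualGaloisRep (ResidueField O)} {N : ℕ} [NeZero N] {U aux S : Finset ℕ} {a : ℕ → O}
  {ord : Bool}

/-- The minimal system exists and has an `O`-point. -/
theorem exists_lattice_sys (H : Seed p O ρbar N U aux S a ord) :
    ∃ X₀ : Sys p O ρbar N S, X₀.IsLattice a ∧ X₀.X.Cond U U ord ∧
      Nonempty (X₀.X.R →ₐ[O] O) := by
  have hsq : ∀ l : ℕ, l.Prime → ¬ l ^ 2 ∣ N := fun l hl h =>
    hl.not_isUnit (H.squarefree l (by rwa [← pow_two]))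
  obtain ⟨Y, e, hcond, he⟩ := Levels.exists_sys_of_seed H ∅ N ord H.ordinary dvd_rfl H.level_mem
    (hsq p Fact.out) H.p_dvd_iff
    (fun l hl hlN => (em (l = p)).imp id fun hlp => by
      rw [Finset.union_empty, Finset.mem_union]
      exact (H.dvd_iff l hl hlp).mp hlN)
    (fun l hl => hsq l ((Finset.mem_union.mp hl).elim (fun h => (H.mem_U l h).1)
      fun h => (H.mem_aux l h).1))
    (Auto.latLoc N (1 : (ZMod N)ˣ →* Unit) O S a) le_rfl (Levels.latLoc_ne_bot_of_seed H)
    (fun l x hx => Auto.latT_mem_latLoc l.1 hx)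
  rw [Finset.union_empty] at hcond
  exact ⟨Y, ⟨e, he⟩, hcond, Levels.exists_point H Y e he⟩

end Fermat.Agent.R59
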