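/-
S59, unit G: patching data modulo deeper and deeper powers of the maximal ideal give exact data,
by taking limits along a nonprincipal ultrafilter.
-/
import Fermat.Agent.LL.Patch
import Fermat.Agent.Auto.Level.Density
import Mathlib.Order.Filter.Ultrafilter.Basic

set_option autoImplicit false
set_option linter.style.haveILetI false
set_option linter.unusedSectionVars false

noncomputable section

open IsLocalRing Filter MvPowerSeries

namespace Fermat.Agent.R59

section Lim

variable {S : Type} [CommRing S] [IsLocalRing S] [IsNoetherianRing S]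
  [IsAdicComplete (maximalIdeal S) S]

/-- Convergence along the chosen ultrafilter. -/
def IsLim (x : ℕ → S) (L : S) : Prop :=
  ∀ k, ∀ᶠ n in (hyperfilter ℕ : Filter ℕ), x n - L ∈ maximalIdeal S ^ k

theorem exists_isLim [Finite (ResidueField S)] (x : ℕ → S) : ∃ L, IsLim x L := by
  have hk : ∀ k, ∃ c : S, ∀ᶠ n in (hyperfilter ℕ : Filter ℕ), x n - c ∈ maximalIdeal S ^ k := by
    intro k
    haveI : Finite (S ⧸ maximalIdeal S ^ k) := finite_quotient_iff.mpr ⟨k, le_rfl⟩
    obtain ⟨c, hc⟩ := Ultrafilter.eq_pure_of_finite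
      ((hyperfilter ℕ).map fun n => Ideal.Quotient.mk (maximalIdeal S ^ k) (x n))
    obtain ⟨c, rfl⟩ := Ideal.Quotient.mk_surjective c
    refine ⟨c, ?_⟩
    have h : {Ideal.Quotient.mk (maximalIdeal S ^ k) c} ∈
        (hyperfilter ℕ).map fun n => Ideal.Quotient.mk (maximalIdeal S ^ k) (x n) := by
      rw [hc]; exact Set.mem_singleton _
    exact Filter.Eventually.mono (Ultrafilter.mem_map.mp h) fun n hn => Ideal.Quotient.eq.mp hn
  choose c hc using hk
  obtain ⟨L, hL⟩ := IsPrecomplete.prec (I := maximalIdeal S) (M := S) inferInstance (f := c)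
    (fun {a b} hab => by
      rw [SModEq.sub_mem, smul_eq_mul, Ideal.mul_top]
      obtain ⟨n, hna, hnb⟩ := ((hc a).and (hc b)).exists
      rw [show c a - c b = (x n - c b) - (x n - c a) by ring]
      exact sub_mem (Ideal.pow_le_pow_right hab hnb) hna)
  refine ⟨L, fun k => (hc k).mono fun n hn => ?_⟩
  have h := hL k
  rw [SModEq.sub_mem, smul_eq_mul, Ideal.mul_top] at h
  rw [show x n - L = (x n - c k) + (c k - L) by ring]
  exact add_mem hn h

theorem IsLim.unique {x : ℕ → S} {L L' : S} (h : IsLim x L) (h' : IsLim x L') : L = L' := by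
  refine sub_eq_zero.mp (IsHausdorff.haus (I := maximalIdeal S) (M := S) inferInstance _ fun k => ?_)
  rw [SModEq.zero, smul_eq_mul, Ideal.mul_top]
  obtain ⟨n, h1, h2⟩ := ((h k).and (h' k)).exists
  rw [show L - L' = (x n - L') - (x n - L) by ring]
  exact sub_mem h2 h1

theorem IsLim.add {x y : ℕ → S} {L M : S} (h : IsLim x L) (h' : IsLim y M) :
    IsLim (fun n => x n + y n) (L + M) := fun k =>
  ((h k).and (h' k)).mono fun n hn => by
    rw [show x n + y n - (L + M) = (x n - L) + (y n - M) by ring]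
    exact add_mem hn.1 hn.2

theorem IsLim.mul {x y : ℕ → S} {L M : S} (h : IsLim x L) (h' : IsLim y M) :
    IsLim (fun n => x n * y n) (L * M) := fun k =>
  ((h k).and (h' k)).mono fun n hn => by
    rw [show x n * y n - L * M = (x n - L) * y n + L * (y n - M) by ring]
    exact add_mem (Ideal.mul_mem_right _ _ hn.1) (Ideal.mul_mem_left _ _ hn.2)

theorem isLim_const (L : S) : IsLim (fun _ => L) L := fun k =>
  Filter.Eventually.of_forall fun n => by simp

theorem IsLim.congr {x y : ℕ → S} {L : S} (h : IsLim x L)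
    (hxy : ∀ k, ∀ᶠ n in (hyperfilter ℕ : Filter ℕ), y n - x n ∈ maximalIdeal S ^ k) : IsLim y L :=
  fun k => ((h k).and (hxy k)).mono fun n hn => by
    rw [show y n - L = (y n - x n) + (x n - L) by ring]
    exact add_mem hn.2 hn.1

theorem IsLim.sum {ι : Type} (s : Finset ι) {x : ι → ℕ → S} {L : ι → S}
    (h : ∀ i, IsLim (x i) (L i)) : IsLim (fun n => ∑ i ∈ s, x i n) (∑ i ∈ s, L i) := by
  classical
  induction s using Finset.induction_on with
  | empty => simpa using isLim_const (0 : S)
  | insert i s hi ih =>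
    simp only [Finset.sum_insert hi]
    exact (h i).add ih

theorem eventually_ge (k : ℕ) : ∀ᶠ n in (hyperfilter ℕ : Filter ℕ), k ≤ n :=
  Nat.hyperfilter_le_atTop (Filter.eventually_ge_atTop k)

end Lim

/-- A local homomorphism preserves the powers of the maximal ideal. -/
theorem map_mem_pow {A B : Type} [CommRing A] [IsLocalRing A] [CommRing B] [IsLocalRing B]
    (φ : A →+* B) [IsLocalHom φ] {k : ℕ} {a : A} (h : a ∈ maximalIdeal A ^ k) :
    φ a ∈ maximalIdeal B ^ k := by
  have h1 := Ideal.mem_map_of_mem φ h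
  rw [Ideal.map_pow] at h1
  refine Ideal.pow_right_mono (Ideal.map_le_iff_le_comap.mpr fun x hx => ?_) k h1
  exact (mem_maximalIdeal _).mpr (map_nonunit φ x hx)

section Matrix

variable {S : Type} [CommRing S] [IsLocalRing S] [IsNoetherianRing S]
  [IsAdicComplete (maximalIdeal S) S] {s : ℕ}

/-- Entrywise convergence. -/
def MLim (x : ℕ → Matrix (Fin s) (Fin s) S) (L : Matrix (Fin s) (Fin s) S) : Prop :=
  ∀ i j, IsLim (fun n => x n i j) (L i j)

theorem exists_mlim [Finite (ResidueField S)] (x : ℕ → Matrix (Fin s) (Fin s) S) :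
    ∃ L, MLim x L := by
  choose L hL using fun i j => exists_isLim fun n => x n i j
  exact ⟨Matrix.of L, hL⟩

theorem MLim.unique {x : ℕ → Matrix (Fin s) (Fin s) S} {L L' : Matrix (Fin s) (Fin s) S}
    (h : MLim x L) (h' : MLim x L') : L = L' :=
  Matrix.ext fun i j => (h i j).unique (h' i j)

theorem MLim.add {x y : ℕ → Matrix (Fin s) (Fin s) S} {L M : Matrix (Fin s) (Fin s) S}
    (h : MLim x L) (h' : MLim y M) : MLim (fun n => x n + y n) (L + M) :=
  fun i j => (h i j).add (h' i j)

theorem MLim.mul {x y : ℕ → Matrix (Fin s) (Fin s) S} {L M : Matrix (Fin s) (Fin s) S}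
    (h : MLim x L) (h' : MLim y M) : MLim (fun n => x n * y n) (L * M) := fun i j => by
  simp only [Matrix.mul_apply]
  exact IsLim.sum _ fun l => (h i l).mul (h' l j)

theorem mlim_const (L : Matrix (Fin s) (Fin s) S) : MLim (fun _ => L) L :=
  fun i j => isLim_const (L i j)

theorem MLim.congr {x y : ℕ → Matrix (Fin s) (Fin s) S} {L : Matrix (Fin s) (Fin s) S}
    (h : MLim x L) (hxy : ∀ k, ∀ᶠ n in (hyperfilter ℕ : Filter ℕ),
      ∀ i j, (y n - x n) i j ∈ maximalIdeal S ^ k) : MLim y L := fun i j =>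
  (h i j).congr fun k => (hxy k).mono fun _ hn => hn i j

end Matrix

variable {O : Type} [CommRing O] [IsDomain O] [IsDiscreteValuationRing O] {r s : ℕ}
  {Y : Type} [CommRing Y] [IsLocalRing Y] [Algebra O Y]

local notation "P" => MvPowerSeries (Fin r) O
local notation "Ms" => Matrix (Fin s) (Fin s) (MvPowerSeries (Fin r) O)

/-- The diamond relation at `j`: `(y - g)((1 + g)(1 + y) - 1)`. -/
def relMat (j : Fin r) (g : Ms) : Ms :=
  (algebraMap P Ms (X j) - g) * ((1 + g) * (1 + algebraMap P Ms (X j)) - 1)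

/-- Patching data at depth `n`. -/
structure IsPatchDatum (e n : ℕ) (ξ : Y →ₐ[O] Matrix (Fin s) (Fin s) O)
    (Φ : P → Ms) (ψ : P →ₐ[O] Y) (G : Fin r → P) : Prop where
  add : ∀ f g i j, (Φ (f + g) - (Φ f + Φ g)) i j ∈ maximalIdeal P ^ n
  mul : ∀ f g i j, (Φ (f * g) - Φ f * Φ g) i j ∈ maximalIdeal P ^ n
  scal : ∀ c i j, (Φ (C c) - algebraMap P Ms (C c)) i j ∈ maximalIdeal P ^ n
  cont : ∀ k, k ≤ n → ∀ f ∈ maximalIdeal P ^ (e * k), ∀ i j, Φ f i j ∈ maximalIdeal P ^ k
  surjective : Function.Surjective ψ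
  kills : ∀ j, ψ (G j) = 0
  rel : ∀ l i j, relMat l (Φ (G l)) i j ∈ maximalIdeal P ^ n
  reduce : ∀ f, (Φ f).map constantCoeff = ξ (ψ f)

variable [IsAdicComplete (maximalIdeal O) O] [Finite (ResidueField O)]
  [IsNoetherianRing Y] [IsAdicComplete (maximalIdeal Y) Y] [Module.Finite O Y]
  [IsLocalHom (algebraMap O Y)]

omit [IsDomain O] [IsDiscreteValuationRing O] [IsAdicComplete (maximalIdeal O) O]
  [Finite (ResidueField O)] [IsNoetherianRing Y] [IsAdicComplete (maximalIdeal Y) Y]
  [Module.Finite O Y] [IsLocalHom (algebraMap O Y)] [IsLocalRing Y] in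
theorem map_mem_of_mem_map [IsLocalRing O] (ξ : Y →ₐ[O] Matrix (Fin s) (Fin s) O) {I : Ideal O}
    {z : Y} (hz : z ∈ I.map (algebraMap O Y)) : ∀ i j, ξ z i j ∈ I := by
  induction hz using Submodule.span_induction with
  | mem z hz =>
    obtain ⟨o, ho, rfl⟩ := hz
    intro i j
    rw [AlgHom.commutes, Matrix.algebraMap_matrix_apply]
    split_ifs
    · exact ho
    · exact zero_mem _
  | zero => intro i j; rw [map_zero]; exact zero_mem _
  | add a b _ _ ha hb => intro i j; rw [map_add]; exact add_mem (ha i j) (hb i j)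
  | smul t z _ hz =>
    intro i j
    rw [smul_eq_mul, map_mul, Matrix.mul_apply]
    exact Ideal.sum_mem _ fun l _ => Ideal.mul_mem_left _ _ (hz l j)

/-- **The limit of patching data.** -/
theorem exists_patched_limit (e : ℕ) (ξ : Y →ₐ[O] Matrix (Fin s) (Fin s) O)
    (hY : Function.Surjective (residue Y ∘ algebraMap O Y))
    (h : ∀ n, ∃ (Φ : P → Ms) (ψ : P →ₐ[O] Y) (G : Fin r → P), IsPatchDatum e n ξ Φ ψ G) :
    ∃ (Φ : P →ₐ[O] Ms) (ψ : P →ₐ[O] Y) (G : Fin r → P), Function.Surjective ψ ∧
      (∀ j, ψ (G j) = 0) ∧ (∀ j, relMat j (Φ (G j)) = 0) ∧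
      (∀ f, (Φ f).map constantCoeff = ξ (ψ f)) ∧
      ∀ k, ∀ f ∈ maximalIdeal P ^ (e * k), ∀ i j, Φ f i j ∈ maximalIdeal P ^ k := by
  classical
  haveI := LL.finite_residueField_powerSeries (O := O) r
  haveI : Finite (ResidueField Y) :=
    Finite.of_surjective (ResidueField.map (algebraMap O Y)) fun y => by
      obtain ⟨o, ho⟩ := hY y
      exact ⟨residue O o, by rw [ResidueField.map_residue]; exact ho⟩
  choose Φn ψn Gn hn using h
  haveI hloc : ∀ n, IsLocalHom (ψn n : P →+* Y) := fun n =>
    IsLocalHom.of_surjective _ (hn n).surjective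
  choose Φ₁ hΦ₁ using fun f => exists_mlim fun n => Φn n f
  choose ψ₁ hψ₁ using fun f => exists_isLim fun n => ψn n f
  choose G hG using fun j => exists_isLim fun n => Gn n j
  let Φ : P →ₐ[O] Ms :=
    { toFun := Φ₁
      map_add' := fun f g => (hΦ₁ (f + g)).unique (((hΦ₁ f).add (hΦ₁ g)).congr fun k =>
        (eventually_ge k).mono fun n hk i j => Ideal.pow_le_pow_right hk ((hn n).add f g i j))
      map_mul' := fun f g => (hΦ₁ (f * g)).unique (((hΦ₁ f).mul (hΦ₁ g)).congr fun k =>
        (eventually_ge k).mono fun n hk i j => Ideal.pow_le_pow_right hk ((hn n).mul f g i j))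
      map_one' := (hΦ₁ 1).unique ((mlim_const 1).congr fun k =>
        (eventually_ge k).mono fun n hk i j => Ideal.pow_le_pow_right hk (by
          simpa using (hn n).scal 1 i j))
      map_zero' := (hΦ₁ 0).unique ((mlim_const 0).congr fun k =>
        (eventually_ge k).mono fun n hk i j => Ideal.pow_le_pow_right hk (by
          simpa using (hn n).scal 0 i j))
      commutes' := fun c => (hΦ₁ _).unique ((mlim_const _).congr fun k =>
        (eventually_ge k).mono fun n hk i j => Ideal.pow_le_pow_right hk (by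
          have := (hn n).scal c i j
          rw [MvPowerSeries.c_eq_algebraMap, ← IsScalarTower.algebraMap_apply] at this
          exact this)) }
  let ψ : P →ₐ[O] Y :=
    { toFun := ψ₁
      map_add' := fun f g => (hψ₁ (f + g)).unique (((hψ₁ f).add (hψ₁ g)).congr fun k =>
        Eventually.of_forall fun n => by simp)
      map_mul' := fun f g => (hψ₁ (f * g)).unique (((hψ₁ f).mul (hψ₁ g)).congr fun k =>
        Eventually.of_forall fun n => by simp)
      map_one' := (hψ₁ 1).unique ((isLim_const 1).congr fun k =>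
        Eventually.of_forall fun n => by simp)
      map_zero' := (hψ₁ 0).unique ((isLim_const 0).congr fun k =>
        Eventually.of_forall fun n => by simp)
      commutes' := fun c => (hψ₁ _).unique ((isLim_const _).congr fun k =>
        Eventually.of_forall fun n => by simp) }
  have hψdiag : ∀ (x : ℕ → P) (L : P), IsLim x L → IsLim (fun n => ψn n (x n)) (ψ L) := by
    intro x L hx
    refine IsLim.congr (x := fun n => ψn n L) (hψ₁ L) fun k => (hx k).mono fun n hn' => ?_
    rw [← map_sub]
    exact map_mem_pow (ψn n : P →+* Y) hn'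
  have hΦdiag : ∀ (x : ℕ → P) (L : P), IsLim x L → MLim (fun n => Φn n (x n)) (Φ L) := by
    intro x L hx
    refine MLim.congr (x := fun n => Φn n L) (hΦ₁ L) fun k =>
      ((eventually_ge k).and (hx (e * k))).mono fun n hnk i j => ?_
    have h1 := Ideal.pow_le_pow_right hnk.1 ((hn n).add L (x n - L) i j)
    rw [add_sub_cancel] at h1
    have h2 := (hn n).cont k hnk.1 _ hnk.2 i j
    simp only [Matrix.sub_apply, Matrix.add_apply] at h1 ⊢
    rw [show Φn n (x n) i j - Φn n L i j =
      (Φn n (x n) i j - (Φn n L i j + Φn n (x n - L) i j)) + Φn n (x n - L) i j by ring]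
    exact add_mem h1 h2
  refine ⟨Φ, ψ, G, fun y => ?_, fun j => ?_, fun j => ?_, fun f => ?_, fun k f hf i j => ?_⟩
  · choose fn hfn using fun n => (hn n).surjective y
    obtain ⟨F, hF⟩ := exists_isLim fn
    refine ⟨F, (hψdiag fn F hF).unique ((isLim_const y).congr fun k => Eventually.of_forall fun n => ?_)⟩
    rw [hfn]; simp
  · exact (hψdiag _ _ (hG j)).unique ((isLim_const 0).congr fun k => Eventually.of_forall fun n => by
      rw [(hn n).kills]; simp)
  · have hg := hΦdiag _ _ (hG j)
    have hy := mlim_const (algebraMap P Ms (X j))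
    have hneg : ∀ {x : ℕ → Ms} {L : Ms}, MLim x L → MLim (fun n => (-1 : Ms) * x n) ((-1) * L) :=
      fun hx => (mlim_const _).mul hx
    have hlim : MLim (fun n => relMat j (Φn n (Gn n j))) (relMat j (Φ (G j))) := by
      have h := (hy.add (hneg hg)).mul
        ((((mlim_const 1).add hg).mul ((mlim_const 1).add hy)).add (mlim_const (-1)))
      simpa only [relMat, sub_eq_add_neg, neg_one_mul] using h
    exact hlim.unique ((mlim_const 0).congr fun k => (eventually_ge k).mono fun n hk i l => by
      simpa using Ideal.pow_le_pow_right hk ((hn n).rel j i l))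
  · haveI : IsLocalHom (constantCoeff : P →+* O) :=
      ⟨fun a ha => isUnit_iff_constantCoeff.mpr ha⟩
    ext i j
    refine IsLim.unique (x := fun n => constantCoeff (Φn n f i j)) (fun k => ?_) (fun k => ?_)
    · exact (hΦ₁ f i j k).mono fun n hn' => by
        rw [Matrix.map_apply, ← map_sub]
        exact map_mem_pow (constantCoeff : P →+* O) hn'
    · obtain ⟨N, hN⟩ := Auto.exists_pow_maximalIdeal_le_map O Y
      exact (hψ₁ f (N * k)).mono fun n hn' => by
        show constantCoeff (Φn n f i j) - ξ (ψ₁ f) i j ∈ _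
        rw [← Matrix.map_apply (f := constantCoeff) (M := Φn n f), (hn n).reduce, ← Matrix.sub_apply, ← map_sub]
        refine map_mem_of_mem_map ξ ?_ i j
        rw [Ideal.map_pow]
        refine Ideal.pow_right_mono hN k ?_
        rw [← pow_mul]
        exact hn'
  · obtain ⟨n, h1, h2⟩ := ((hΦ₁ f i j k).and (eventually_ge k)).exists
    show Φ₁ f i j ∈ _
    rw [show Φ₁ f i j = Φn n f i j - (Φn n f i j - Φ₁ f i j) by ring]
    exact sub_mem ((hn n).cont k h2 f hf i j) h1

end Fermat.Agent.R59
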