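/-
S59, unit G: a free module over a deep quotient of the power series in the diamond parameters, with
commuting operators and a reduction, gives patching data.
-/
import Fermat.Agent.R59.Min.Limit
import Fermat.Agent.LL.Gen.GroupRing

set_option autoImplicit false
set_option linter.style.haveILetI false
set_option linter.unusedSectionVars false

noncomputable section

open IsLocalRing MvPowerSeries Matrix

namespace Fermat.Agent.R59

variable {O : Type} [CommRing O] [IsDomain O] [IsDiscreteValuationRing O]
  [IsAdicComplete (maximalIdeal O) O] [Finite (ResidueField O)] {r s : ℕ}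

local notation "P" => MvPowerSeries (Fin r) O
local notation "Ms" => Matrix (Fin s) (Fin s) (MvPowerSeries (Fin r) O)

/-- A power of the maximal ideal lies in the ideal of `X_i ^ s` and the uniformiser. -/
theorem exists_pow_le_span {ϖ : O} (hϖ : Irreducible ϖ) : ∃ e, maximalIdeal P ^ e ≤
    Ideal.span (Set.range fun i : Fin r => (X i : P) ^ s) ⊔ Ideal.span {C ϖ} := by
  refine Ideal.exists_pow_le_of_le_radical_of_fg ?_ (IsNoetherian.noetherian _)
  rw [LL.maximalIdeal_eq_sup hϖ, sup_le_iff, Ideal.span_le, Ideal.span_le, Set.singleton_subset_iff]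
  refine ⟨?_, Ideal.le_radical (Ideal.mem_sup_right (Ideal.mem_span_singleton_self _))⟩
  rintro _ ⟨j, rfl⟩
  exact ⟨s, Ideal.mem_sup_left (Ideal.subset_span ⟨j, rfl⟩)⟩

/-- **Patching data of a level.** -/
theorem exists_patchDatum_of_level {ϖ : O} (hϖ : Irreducible ϖ) (hs : 0 < s) {e n : ℕ}
    (he : maximalIdeal P ^ e ≤
      Ideal.span (Set.range fun i : Fin r => (X i : P) ^ s) ⊔ Ideal.span {C ϖ})
    {R : Type} [CommRing R] (φR : P →+* R) (hφR : Function.Surjective φR)
    (hker : RingHom.ker φR ≤ maximalIdeal P ^ n)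
    {V : Type} [AddCommGroup V] [Module O V] [Module R V] (b : Module.Basis (Fin s) R V)
    (hC : ∀ (a : O) (v : V), φR (C a) • v = a • v)
    (op : P →+* Module.End R V)
    (hopC : ∀ c, op (C c) = algebraMap R (Module.End R V) (φR (C c)))
    (hnil : ∀ i, ∃ (N : ℕ) (u : Module.End R V),
      op (X i) ^ N = algebraMap R (Module.End R V) (φR (C ϖ)) * u)
    (pn : V →ₗ[O] (Fin s → O)) (hpn : Function.Surjective pn)
    (hy : ∀ (j : Fin r) (v : V), pn (φR (X j) • v) = 0)
    {Y : Type} [CommRing Y] [IsLocalRing Y] [Algebra O Y]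
    (ξ : Y →ₐ[O] Matrix (Fin s) (Fin s) O) (ψ : P →ₐ[O] Y) (hψ : Function.Surjective ψ)
    (G : Fin r → P) (hG : ∀ j, ψ (G j) = 0) (hop : ∀ f v, pn (op f v) = ξ (ψ f) *ᵥ pn v)
    (hrel : ∀ j, (algebraMap R (Module.End R V) (φR (X j)) - op (G j)) *
      ((1 + op (G j)) * (1 + algebraMap R (Module.End R V) (φR (X j))) - 1) = 0) :
    ∃ Φ : P → Ms, IsPatchDatum e n ξ Φ ψ G := by
  classical
  haveI : NeZero s := ⟨hs.ne'⟩
  haveI : Nontrivial V := hpn.nontrivial
  haveI : Nontrivial R := Module.nontrivial R V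
  haveI : IsLocalRing R := IsLocalRing.of_surjective' φR hφR
  haveI : IsLocalHom φR := .of_surjective φR hφR
  have hmax : maximalIdeal R = (maximalIdeal P).map φR :=
    (IsLocalRing.map_maximalIdeal_of_surjective φR hφR).symm
  -- `pn` in coordinates
  have hpnR : ∀ (a : P) (v : V), pn (φR a • v) = constantCoeff a • pn v := by
    intro a v
    have hmem : a - C (constantCoeff a) ∈ Ideal.span (Set.range fun i : Fin r => (X i : P)) := by
      rw [← Patching.ofList_X, Patching.mem_ofList_X_iff]; simp
    rw [Ideal.mem_span_range_iff_exists_fun] at hmem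
    obtain ⟨w, hw⟩ := hmem
    have ha : φR a = φR (C (constantCoeff a)) + ∑ i, φR (X i) * φR (w i) := by
      rw [← sub_eq_iff_eq_add', ← map_sub, ← hw, map_sum]
      exact Finset.sum_congr rfl fun i _ => by rw [map_mul, mul_comm]
    rw [ha, add_smul, map_add, hC, map_smul, Finset.sum_smul, map_sum,
      Finset.sum_eq_zero fun i _ => by rw [mul_smul, hy], add_zero]
  let M : Matrix (Fin s) (Fin s) O := Matrix.of fun i l => pn (b l) i
  have hM : ∀ a : Fin s → P, pn (∑ l, φR (a l) • b l) = M *ᵥ fun l => constantCoeff (a l) := by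
    intro a
    funext i
    rw [map_sum, Finset.sum_apply, Matrix.mulVec, dotProduct]
    exact Finset.sum_congr rfl fun l _ => by
      rw [hpnR, Pi.smul_apply, smul_eq_mul, mul_comm]; rfl
  have hrepr : ∀ v : V, ∃ a : Fin s → P, v = ∑ l, φR (a l) • b l := fun v => by
    choose a ha using fun l => hφR (b.repr v l)
    exact ⟨a, by simp only [ha, b.sum_repr]⟩
  have hMu : IsUnit M := Matrix.mulVec_surjective_iff_isUnit.mp fun w => by
    obtain ⟨v, rfl⟩ := hpn w
    obtain ⟨a, rfl⟩ := hrepr v
    exact ⟨_, (hM a).symm⟩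
  obtain ⟨Mu, hMu'⟩ := hMu
  let CM : Matrix (Fin s) (Fin s) O →+* Ms := (C : O →+* P).mapMatrix
  let MR : (Matrix (Fin s) (Fin s) R)ˣ := Units.map (φR.mapMatrix.comp CM).toMonoidHom Mu
  let conjR : Matrix (Fin s) (Fin s) R →+* Matrix (Fin s) (Fin s) R :=
    { toFun := fun A => MR.1 * A * MR⁻¹.1
      map_one' := by rw [mul_one, MR.mul_inv]
      map_mul' := fun A B => by simp only [mul_assoc, MR.inv_mul_cancel_left]
      map_zero' := by rw [mul_zero, zero_mul]
      map_add' := fun A B => by rw [mul_add, add_mul] }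
  have hconjAlg : ∀ c : R, conjR (algebraMap R _ c) = algebraMap R _ c := fun c => by
    show MR.1 * algebraMap R _ c * MR⁻¹.1 = _
    rw [← Algebra.commutes, mul_assoc, MR.mul_inv, mul_one]
  let TM : Module.End R V →ₐ[R] Matrix (Fin s) (Fin s) R := (LinearMap.toMatrixAlgEquiv b).toAlgHom
  let θE : Module.End R V →+* Matrix (Fin s) (Fin s) R := conjR.comp TM.toRingHom
  have hθalg : ∀ c : R, θE (algebraMap R _ c) = algebraMap R _ c := fun c => by
    show conjR (TM (algebraMap R _ c)) = _
    rw [AlgHom.commutes, hconjAlg]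
  let θ : P →+* Matrix (Fin s) (Fin s) R := θE.comp op
  choose sec hsec using hφR
  let q : Ms →+* Matrix (Fin s) (Fin s) R := φR.mapMatrix
  let Φ : P → Ms := fun f => CM Mu.1 * (TM (op f)).map sec * CM Mu⁻¹.1
  have hq : ∀ f, q (Φ f) = θ f := fun f => by
    rw [map_mul, map_mul]
    show _ * ((TM (op f)).map sec).map φR * _ = MR.1 * TM (op f) * MR⁻¹.1
    rw [Matrix.map_map, show φR ∘ sec = id from funext hsec, Matrix.map_id]
    rfl
  have hqker : ∀ A : Ms, q A = 0 → ∀ i j, A i j ∈ maximalIdeal P ^ n := fun A hA i j =>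
    hker (congrFun (congrFun hA i) j)
  have hqalg : ∀ c : P, q (algebraMap P Ms c) = algebraMap R _ (φR c) :=
    fun c => LL.mapMatrix_algebraMap φR c
  -- the uniform continuity
  let K : Ideal P := RingHom.ker ((Ideal.Quotient.mk (maximalIdeal R)).mapMatrix.comp θ)
  have hKmem : ∀ f ∈ K, ∀ i j, θ f i j ∈ maximalIdeal R := fun f hf i j =>
    Ideal.Quotient.eq_zero_iff_mem.mp (congrFun (congrFun hf i) j)
  have hϖR : φR (C ϖ) ∈ maximalIdeal R := by
    rw [hmax]
    refine Ideal.mem_map_of_mem φR ?_
    rw [mem_maximalIdeal, mem_nonunits_iff, isUnit_iff_constantCoeff, constantCoeff_C]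
    exact hϖ.not_isUnit
  have hKe : maximalIdeal P ^ e ≤ K := by
    refine he.trans (sup_le (Ideal.span_le.mpr ?_) (Ideal.span_le.mpr ?_))
    · rintro _ ⟨i, rfl⟩
      show (Ideal.Quotient.mk (maximalIdeal R)).mapMatrix (conjR (TM (op (X i ^ s)))) = 0
      obtain ⟨N, u, hu⟩ := hnil i
      have hrange : LinearMap.range (op (X i) ^ s) ≤ maximalIdeal R • (⊤ : Submodule R V) := by
        refine LL.range_pow_le_smul b _ (N := N) ?_
        rintro _ ⟨w, rfl⟩
        rw [hu, Module.End.mul_apply, Module.algebraMap_end_apply]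
        exact Submodule.smul_mem_smul hϖR Submodule.mem_top
      have hz : (Ideal.Quotient.mk (maximalIdeal R)).mapMatrix (TM (op (X i ^ s))) = 0 := by
        ext k l
        rw [RingHom.mapMatrix_apply, Matrix.map_apply, Matrix.zero_apply,
          Ideal.Quotient.eq_zero_iff_mem, map_pow]
        show LinearMap.toMatrixAlgEquiv b (op (X i) ^ s) k l ∈ _
        rw [LinearMap.toMatrixAlgEquiv_apply]
        refine Submodule.smul_induction_on (p := fun m => b.repr m k ∈ maximalIdeal R)
          (hrange (LinearMap.mem_range_self _ (b l))) (fun c hc m _ => ?_) (fun m m' hm hm' => ?_)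
        · rw [map_smul, Finsupp.smul_apply, smul_eq_mul]; exact Ideal.mul_mem_right _ _ hc
        · rw [map_add, Finsupp.add_apply]; exact add_mem hm hm'
      show (Ideal.Quotient.mk (maximalIdeal R)).mapMatrix (MR.1 * _ * MR⁻¹.1) = 0
      rw [map_mul, map_mul, hz, mul_zero, zero_mul]
    · rw [Set.singleton_subset_iff]
      show (Ideal.Quotient.mk (maximalIdeal R)).mapMatrix (θE (op (C ϖ))) = 0
      rw [hopC, hθalg, LL.mapMatrix_algebraMap, Ideal.Quotient.eq_zero_iff_mem.mpr hϖR, map_zero]
  have hcontθ : ∀ k, ∀ f ∈ maximalIdeal P ^ (e * k), ∀ i j, θ f i j ∈ maximalIdeal R ^ k := by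
    intro k
    induction k with
    | zero => intro f _ i j; rw [pow_zero, Ideal.one_eq_top]; exact Submodule.mem_top
    | succ k ih =>
      intro f hf
      rw [Nat.mul_succ, pow_add] at hf
      refine Submodule.mul_induction_on hf (fun a ha c hc i j => ?_) fun a c ha hc i j => ?_
      · rw [map_mul, Matrix.mul_apply, pow_succ]
        exact Ideal.sum_mem _ fun l _ => Ideal.mul_mem_mul (ih a ha i l) (hKmem c (hKe hc) l j)
      · rw [map_add]; exact add_mem (ha i j) (hc i j)
  refine ⟨Φ,
    { add := fun f g i j => hqker _ (by rw [map_sub, map_add, hq, hq, hq, map_add, sub_self]) i j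
      mul := fun f g i j => hqker _ (by
        rw [RingHom.map_sub, RingHom.map_mul q (Φ f) (Φ g), hq, hq, hq, map_mul, sub_self]) i j
      scal := fun c i j => hqker _ (by
        rw [map_sub, hq, hqalg]
        show θE (op (C c)) - _ = 0
        rw [hopC, hθalg, sub_self]) i j
      cont := fun k hk f hf i j => ?_
      surjective := hψ
      kills := hG
      rel := fun l i j => hqker _ ?_ i j
      reduce := fun f => ?_ }⟩
  · have h1 := hcontθ k f hf i j
    rw [← hq, RingHom.mapMatrix_apply, Matrix.map_apply, hmax, ← Ideal.map_pow, ← Ideal.mem_comap,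
      Ideal.comap_map_of_surjective' _ (fun y => ⟨sec y, hsec y⟩)] at h1
    exact (sup_le le_rfl (hker.trans (Ideal.pow_le_pow_right hk))) h1
  · have h := congrArg θE (hrel l)
    simp only [map_mul, map_sub, map_add, map_one, hθalg, map_zero] at h
    rw [relMat]
    simp only [map_mul, map_sub, map_add, map_one, hq, hqalg]
    exact h
  · have hct : ∀ A : Matrix (Fin s) (Fin s) O, (CM A).map constantCoeff = A := fun A => by
      ext i j; simp [CM]
    have key : M * ((TM (op f)).map sec).map constantCoeff = ξ (ψ f) * M := by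
      refine Matrix.ext_iff_mulVec.mpr fun w => ?_
      let v : V := ∑ l, φR (C (w l)) • b l
      have hv : pn v = M *ᵥ w := by rw [hM]; simp
      have h1 := hop f v
      rw [hv] at h1
      have h2 : op f v = ∑ i, φR (((TM (op f)).map sec *ᵥ fun l => C (w l)) i) • b i := by
        conv_lhs => rw [← b.sum_repr (op f v)]
        refine Finset.sum_congr rfl fun i _ => ?_
        congr 1
        have e1 : ((TM (op f)).map sec).map φR = TM (op f) := by
          rw [Matrix.map_map, show φR ∘ sec = id from funext hsec, Matrix.map_id]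
        have e2 : (φR ∘ fun l => C (w l)) = ⇑(b.repr v) := funext fun l => by
          show φR (C (w l)) = b.repr v l
          rw [b.repr_sum_self]
        rw [← LinearMap.toMatrix_mulVec_repr b b (op f) v, RingHom.map_mulVec, e1, e2]
        rfl
      rw [h2, hM] at h1
      rw [← Matrix.mulVec_mulVec, ← Matrix.mulVec_mulVec, ← h1]
      congr 1
      funext i
      simp [Matrix.mulVec, dotProduct]
    show ((CM Mu.1 * (TM (op f)).map sec * CM Mu⁻¹.1)).map constantCoeff = _
    rw [Matrix.map_mul, Matrix.map_mul, hct, hct, hMu', key, ← hMu', mul_assoc, Mu.mul_inv, mul_one]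

end Fermat.Agent.R59
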