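/-
S59, unit G: the parameters `X_j² / (1 + X_j)` of `O⟦X₁, …, X_r⟧` with a uniformiser.
-/
import Fermat.Agent.LL.Algebra.Complete
import Fermat.Agent.Patching.Descent
import Fermat.Agent.LL.Patch

set_option autoImplicit false
set_option linter.unusedSectionVars false

noncomputable section

open MvPowerSeries RingTheory.Sequence IsLocalRing

namespace Fermat.Agent.R59

variable {O : Type} [CommRing O] {r : ℕ}

local notation "P" => MvPowerSeries (Fin r) O

/-- `X_j² / (1 + X_j)`. -/
def sqParam (j : Fin r) : P := X j ^ 2 * invOfUnit (1 + X j) 1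

theorem one_add_X_mul_inv (j : Fin r) : (1 + X j : P) * invOfUnit (1 + X j) 1 = 1 :=
  mul_invOfUnit _ _ (by simp)

theorem sqParam_mul (j : Fin r) : sqParam j * (1 + X j : P) = X j ^ 2 := by
  rw [sqParam, mul_assoc, mul_comm (invOfUnit _ _), one_add_X_mul_inv, mul_one]

theorem mem_span_sq_iff (s : Finset (Fin r)) (f : P) :
    f ∈ Ideal.span ((fun j : Fin r => (X j : P) ^ 2) '' (s : Set (Fin r))) ↔
      ∀ m : Fin r →₀ ℕ, (∀ j ∈ s, m j < 2) → coeff m f = 0 := by
  classical
  induction s using Finset.induction generalizing f with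
  | empty =>
    simp only [Finset.coe_empty, Set.image_empty, Ideal.span_empty, Ideal.mem_bot,
      Finset.notMem_empty, IsEmpty.forall_iff, implies_true, true_implies]
    exact ⟨fun h m => by simp [h], fun h => ext (by simpa using h)⟩
  | @insert j s hj ih =>
    rw [Finset.coe_insert, Set.image_insert_eq, Ideal.mem_span_insert']
    constructor
    · rintro ⟨a, ha⟩ m hm
      have h1 := (ih _).1 ha m (fun i hi => hm i (Finset.mem_insert_of_mem hi))
      have h2 : coeff m (a * X j ^ 2) = 0 :=
        X_pow_dvd_iff.1 (dvd_mul_left (X j ^ 2) a) m (hm j (Finset.mem_insert_self _ _))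
      rw [map_add, h2, add_zero] at h1
      exact h1
    · intro h
      let g : P := fun m => if m j < 2 then 0 else - coeff m f
      have hg : (X j : P) ^ 2 ∣ g := X_pow_dvd_iff.2 (fun m hm => by
        simp only [g, coeff_apply]; rw [if_pos hm])
      obtain ⟨a, ha⟩ := hg
      refine ⟨a, (ih _).2 fun m hm => ?_⟩
      rw [mul_comm, ← ha, map_add, coeff_apply g]
      by_cases hmj : m j < 2
      · simp only [g, hmj, if_true, add_zero]
        exact h m ((Finset.forall_mem_insert _ _ _).2 ⟨hmj, hm⟩)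
      · simp only [g, if_neg hmj, add_neg_cancel]

theorem span_sqParam (s : Set (Fin r)) :
    Ideal.span ((sqParam : Fin r → P) '' s) = Ideal.span ((fun j : Fin r => (X j : P) ^ 2) '' s) := by
  apply le_antisymm <;> rw [Ideal.span_le] <;> rintro _ ⟨j, hj, rfl⟩
  · exact Ideal.mul_mem_right _ _ (Ideal.subset_span ⟨j, hj, rfl⟩)
  · show (X j : P) ^ 2 ∈ _
    rw [← sqParam_mul]
    exact Ideal.mul_mem_right _ _ (Ideal.subset_span ⟨j, hj, rfl⟩)

/-- The sequence of parameters. -/
def sqParams (ϖ : O) : List P := List.ofFn (sqParam : Fin r → P) ++ [C ϖ]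

theorem ofList_take_sqParam (k : ℕ) :
    Ideal.ofList ((List.ofFn (sqParam : Fin r → P)).take k) =
      Ideal.span ((fun j : Fin r => (X j : P) ^ 2) ''
        ((Finset.univ.filter fun j : Fin r => (j : ℕ) < k : Finset (Fin r)) : Set (Fin r))) := by
  rw [← span_sqParam]
  unfold Ideal.ofList
  congr 1
  ext x
  simp only [Set.mem_ofPred_eq, Set.mem_image, Finset.coe_filter, Finset.mem_univ, true_and,
    List.mem_take_iff_getElem, List.getElem_ofFn]
  constructor
  · rintro ⟨i, hi, rfl⟩
    simp only [List.length_ofFn, lt_min_iff] at hi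
    exact ⟨⟨i, hi.2⟩, hi.1, rfl⟩
  · rintro ⟨j, hj, rfl⟩
    exact ⟨j, by simp [hj], rfl⟩

theorem ofList_sqParam :
    Ideal.ofList (List.ofFn (sqParam : Fin r → P)) =
      Ideal.span ((fun j : Fin r => (X j : P) ^ 2) '' ((Finset.univ : Finset (Fin r)) : Set (Fin r))) := by
  have h := ofList_take_sqParam (O := O) (r := r) r
  rw [List.take_of_length_le (by simp)] at h
  rw [h]
  congr 1
  simp

theorem isWeaklyRegular_sqParams [IsDomain O] {ϖ : O} (hϖ : ϖ ≠ 0) :
    IsWeaklyRegular P (sqParams (r := r) ϖ) := by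
  rw [sqParams, isWeaklyRegular_append_iff]
  constructor
  · constructor
    intro i hi
    rw [List.getElem_ofFn]
    have hir : i < r := by simpa using hi
    rw [isSMulRegular_quotient_iff_mem_of_smul_mem]
    intro f hf
    rw [smul_eq_mul, Ideal.mul_top, ofList_take_sqParam] at hf ⊢
    have hf' : (X ⟨i, hir⟩ : P) ^ 2 * f ∈ Ideal.span ((fun j : Fin r => (X j : P) ^ 2) ''
        ((Finset.univ.filter fun j : Fin r => (j : ℕ) < i : Finset (Fin r)) : Set (Fin r))) := by
      have h := Ideal.mul_mem_left _ (1 + X ⟨i, hir⟩) hf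
      rwa [smul_eq_mul, ← mul_assoc, mul_comm (1 + _ : P), sqParam_mul] at h
    rw [mem_span_sq_iff] at hf' ⊢
    intro m hm
    have h2 := hf' (m + Finsupp.single ⟨i, hir⟩ 2) ?_
    · rw [X_pow_eq, add_comm m, coeff_add_monomial_mul, one_mul] at h2
      exact h2
    · intro j hj
      simp only [Finset.mem_filter, Finset.mem_univ, true_and] at hj
      have hne : (⟨i, hir⟩ : Fin r) ≠ j := by
        intro h; subst h; exact (lt_irrefl _) hj
      simp [hne, hm j (by simp [hj])]
  · rw [isWeaklyRegular_singleton_iff, isSMulRegular_quotient_iff_mem_of_smul_mem]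
    intro f hf
    rw [smul_eq_mul, Ideal.mul_top, ofList_sqParam, mem_span_sq_iff] at hf ⊢
    intro m hm
    have h := hf m hm
    rw [smul_eq_mul, coeff_C_mul, mul_eq_zero] at h
    exact h.resolve_left hϖ

variable [IsDomain O] [IsDiscreteValuationRing O]

theorem sqParams_mem {ϖ : O} (hϖ : Irreducible ϖ) :
    ∀ x ∈ sqParams (r := r) ϖ, x ∈ maximalIdeal P := by
  intro x hx
  rw [mem_maximalIdeal, mem_nonunits_iff, isUnit_iff_constantCoeff]
  simp only [sqParams, List.mem_append, List.mem_ofFn, List.mem_singleton] at hx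
  rcases hx with ⟨i, rfl⟩ | rfl
  · simp [sqParam]
  · simpa using hϖ.not_isUnit

/-- The parameters generate an ideal of finite index. -/
theorem finite_quotient_sqParams [IsAdicComplete (maximalIdeal O) O] [Finite (ResidueField O)]
    {ϖ : O} (hϖ : Irreducible ϖ) : Finite (P ⧸ Ideal.ofList (sqParams (r := r) ϖ)) := by
  haveI := LL.finite_residueField_powerSeries (O := O) r
  have hle : maximalIdeal P ≤ (Ideal.ofList (sqParams (r := r) ϖ)).radical := by
    rw [LL.maximalIdeal_eq_sup hϖ, sup_le_iff, Ideal.span_le, Ideal.span_le, Set.singleton_subset_iff]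
    constructor
    · rintro _ ⟨j, rfl⟩
      refine ⟨2, ?_⟩
      rw [← sqParam_mul]
      exact Ideal.mul_mem_right _ _ (Ideal.subset_span (by simp [sqParams]))
    · exact Ideal.le_radical (Ideal.subset_span (by simp [sqParams]))
  obtain ⟨n, hn⟩ := Ideal.exists_pow_le_of_le_radical_of_fg hle (IsNoetherian.noetherian _)
  exact finite_quotient_iff.mpr ⟨n, hn⟩

end Fermat.Agent.R59
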