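/-
S59, unit G: exact patching data give a free module over the minimal ring and a complete
intersection presentation.  The diamond relation `(y - g)((1 + g)(1 + y) - 1) = 0` makes the two
parameters `g² / (1 + g)` and `y² / (1 + y)` equal, so the patched module is free of the same rank
over the power series in `g` and in `y`; S57 then applies.
-/
import Fermat.Agent.R59.Min.SqParam
import Fermat.Agent.R59.Min.Limit
import Fermat.Agent.Patching.Descent
import Fermat.Agent.LL.Algebra.Eval

set_option autoImplicit false
set_option linter.style.haveILetI false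
set_option linter.unusedSectionVars false

noncomputable section

open IsLocalRing MvPowerSeries RingTheory.Sequence Matrix CategoryTheory

namespace Fermat.Agent.R59

variable {O : Type} [CommRing O] {r s : ℕ}

local notation "P" => MvPowerSeries (Fin r) O
local notation "Ms" => Matrix (Fin s) (Fin s) (MvPowerSeries (Fin r) O)

/-- The standard free module with the action pulled back along a matrix representation. -/
@[nolint unusedArguments]
def Pulled (_f : P →+* Ms) : Type := Fin s → P

variable {f : MvPowerSeries (Fin r) O →+* Matrix (Fin s) (Fin s) (MvPowerSeries (Fin r) O)}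

instance : AddCommGroup (Pulled f) := inferInstanceAs (AddCommGroup (Fin s → P))

/-- The coordinates. -/
def Pulled.out : Pulled f ≃+ (Fin s → P) := AddEquiv.refl _

instance : Module P (Pulled f) where
  smul a x := Pulled.out.symm (f a *ᵥ Pulled.out x)
  one_smul x := show Pulled.out.symm (f 1 *ᵥ Pulled.out x) = x by
    rw [map_one, one_mulVec, AddEquiv.symm_apply_apply]
  mul_smul a b x := show Pulled.out.symm (f (a * b) *ᵥ Pulled.out x) =
      Pulled.out.symm (f a *ᵥ (f b *ᵥ Pulled.out x)) by
    rw [map_mul, mulVec_mulVec]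
  smul_zero a := show Pulled.out.symm (f a *ᵥ 0) = 0 by rw [mulVec_zero, map_zero]
  smul_add a x y := show Pulled.out.symm (f a *ᵥ (Pulled.out x + Pulled.out y)) = _ by
    rw [mulVec_add, map_add]; rfl
  add_smul a b x := show Pulled.out.symm (f (a + b) *ᵥ Pulled.out x) = _ by
    rw [map_add f, add_mulVec, map_add]; rfl
  zero_smul x := show Pulled.out.symm (f 0 *ᵥ Pulled.out x) = 0 by
    rw [map_zero, zero_mulVec, map_zero]

theorem Pulled.out_smul (a : P) (x : Pulled f) : Pulled.out (a • x) = f a *ᵥ Pulled.out x := rfl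

theorem Pulled.out_smul_of_scalar {a : P} (ha : f a = algebraMap P Ms a) (x : Pulled f) :
    Pulled.out (a • x) = a • Pulled.out x := by
  rw [Pulled.out_smul, ha, Algebra.algebraMap_eq_smul_one, smul_mulVec, one_mulVec]

theorem Pulled.out_injective : Function.Injective (Pulled.out (f := f)) := AddEquiv.injective _

/-- An ideal generated by scalars acts coordinatewise. -/
theorem Pulled.mem_smul_top {rs : List P} (hrs : ∀ a ∈ rs, f a = algebraMap P Ms a) (x : Pulled f) :
    x ∈ Ideal.ofList rs • (⊤ : Submodule P (Pulled f)) ↔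
      ∀ i, Pulled.out x i ∈ Ideal.ofList rs := by
  constructor
  · intro hx
    refine Submodule.smul_induction_on hx (fun a ha y hy => ?_) fun y z hy hz i => ?_
    · clear hy hx
      induction ha using Submodule.span_induction generalizing y with
      | mem a ha =>
        intro i
        rw [Pulled.out_smul_of_scalar (hrs a ha), Pi.smul_apply, smul_eq_mul]
        exact Ideal.mul_mem_right _ _ (Ideal.subset_span ha)
      | zero => intro i; rw [zero_smul, map_zero]; exact zero_mem _
      | add a b _ _ ha hb => intro i; rw [add_smul, map_add]; exact add_mem (ha y i) (hb y i)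
      | smul c a _ ha => intro i; rw [smul_eq_mul, mul_comm, mul_smul]; exact ha _ i
    · rw [map_add]; exact add_mem (hy i) (hz i)
  · intro hx
    have hsum : x = ∑ i, Pulled.out.symm (Pi.single i (Pulled.out x i)) := by
      rw [← map_sum, Finset.univ_sum_single, AddEquiv.symm_apply_apply]
    rw [hsum]
    refine Submodule.sum_mem _ fun i _ => ?_
    have key : ∀ c ∈ Ideal.ofList rs, Pulled.out.symm (Pi.single i c) ∈
        Ideal.ofList rs • (⊤ : Submodule P (Pulled f)) := by
      intro c hc
      induction hc using Submodule.span_induction with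
      | mem a ha =>
        have e : Pulled.out.symm (Pi.single i a) = a • (Pulled.out (f := f)).symm (Pi.single i 1) := by
          apply Pulled.out_injective
          rw [Pulled.out_smul_of_scalar (hrs a ha), AddEquiv.apply_symm_apply,
            AddEquiv.apply_symm_apply, ← Pi.single_smul, smul_eq_mul, mul_one]
        rw [e]
        exact Submodule.smul_mem_smul (Ideal.subset_span ha) Submodule.mem_top
      | zero => rw [Pi.single_zero, map_zero]; exact zero_mem _
      | add a b _ _ ha hb => rw [Pi.single_add, map_add]; exact add_mem ha hb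
      | smul c a hd ha =>
        rw [smul_eq_mul]
        clear ha
        induction hd using Submodule.span_induction generalizing c with
        | mem b hb =>
          have e : Pulled.out.symm (Pi.single i (c * b)) =
              b • (Pulled.out (f := f)).symm (Pi.single i c) := by
            apply Pulled.out_injective
            rw [Pulled.out_smul_of_scalar (hrs b hb), AddEquiv.apply_symm_apply,
              AddEquiv.apply_symm_apply, ← Pi.single_smul, smul_eq_mul, mul_comm]
          rw [e]
          exact Submodule.smul_mem_smul (Ideal.subset_span hb) Submodule.mem_top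
        | zero => rw [mul_zero, Pi.single_zero, map_zero]; exact zero_mem _
        | add b b' _ _ hb hb' => rw [mul_add, Pi.single_add, map_add]; exact add_mem (hb c) (hb' c)
        | smul d b _ hb => rw [smul_eq_mul, ← mul_assoc]; exact hb (c * d)
    exact key _ (hx i)

variable [IsDomain O] [IsDiscreteValuationRing O] [IsAdicComplete (maximalIdeal O) O]
  [Finite (ResidueField O)]

/-- The residue field of the power series ring has projective dimension at most `r + 1`. -/
theorem projectiveDimension_residue_le {ϖ : O} (hϖ : Irreducible ϖ) :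
    projectiveDimension (ModuleCat.of P (P ⧸ maximalIdeal P)) ≤ (sqParams (r := r) ϖ).length := by
  have hmem' : ∀ x ∈ Patching.stdParams (r := r) ϖ, x ∈ maximalIdeal P := by
    intro x hx
    rw [Patching.maximalIdeal_eq_ofList_stdParams hϖ]; exact Ideal.subset_span hx
  have h := ModuleCat.projectiveDimension_quotient_eq_add_length_of_isWeaklyRegular
    (ModuleCat.of P P) (Patching.stdParams ϖ) (Patching.isWeaklyRegular_stdParams hϖ.ne_zero) hmem'
  have : Projective (ModuleCat.of P P) := (IsProjective.iff_projective P).1 inferInstance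
  rw [ModuleCat.projectiveDimension_eq_zero_of_projective (ModuleCat.of P P), zero_add] at h
  have e1 : (P ⧸ maximalIdeal P) ≃ₗ[P]
      P ⧸ Ideal.ofList (Patching.stdParams (r := r) ϖ) • (⊤ : Submodule P P) :=
    Submodule.quotEquivOfEq _ _ (by
      rw [smul_eq_mul, Ideal.mul_top, Patching.maximalIdeal_eq_ofList_stdParams hϖ])
  rw [projectiveDimension_eq_of_iso e1.toModuleIso, h]
  simp [Patching.stdParams, sqParams]

/-- A pullback fixing the parameters is free of the same rank. -/
theorem exists_basis_pulled (Θ : P →ₐ[O] Ms) (hΘ : ∀ j, Θ (sqParam j) = algebraMap P Ms (sqParam j))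
    (e : ℕ) (hcont : ∀ k, ∀ a ∈ maximalIdeal P ^ (e * k), ∀ i j, Θ a i j ∈ maximalIdeal P ^ k)
    (hs : 0 < s) : Nonempty (Module.Basis (Fin s) P (Pulled (Θ : P →+* Ms))) := by
  classical
  haveI : NeZero s := ⟨hs.ne'⟩
  obtain ⟨ϖ, hϖ⟩ := IsDiscreteValuationRing.exists_irreducible O
  set rs := sqParams (r := r) ϖ with hrs
  have hscal : ∀ a ∈ rs, (Θ : P →+* Ms) a = algebraMap P Ms a := by
    intro a ha
    simp only [hrs, sqParams, List.mem_append, List.mem_ofFn, List.mem_singleton] at ha
    rcases ha with ⟨j, rfl⟩ | rfl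
    · exact hΘ j
    · show Θ (C ϖ) = _
      rw [c_eq_algebraMap, AlgHom.commutes, ← IsScalarTower.algebraMap_apply]
  set N := Pulled (Θ : P →+* Ms)
  haveI : Nontrivial N := Function.Injective.nontrivial
    (f := fun v : Fin s → P => (Pulled.out (f := (Θ : P →+* Ms))).symm v) (AddEquiv.injective _)
  haveI := finite_quotient_sqParams (r := r) hϖ
  have hmem := sqParams_mem (r := r) hϖ
  have hJm : Ideal.ofList rs ≤ maximalIdeal P := Ideal.span_le.mpr hmem
  -- the quotient
  let Q := P ⧸ Ideal.ofList rs
  let red : N →+ (Fin s → Q) :=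
    (Ideal.Quotient.mk (Ideal.ofList rs)).toAddMonoidHom.compLeft (Fin s) |>.comp
      Pulled.out.toAddMonoidHom
  have hred : ∀ x : N, red x = 0 ↔ x ∈ Ideal.ofList rs • (⊤ : Submodule P N) := fun x => by
    rw [Pulled.mem_smul_top hscal]
    refine ⟨fun h i => Ideal.Quotient.eq_zero_iff_mem.mp (congrFun h i),
      fun h => funext fun i => Ideal.Quotient.eq_zero_iff_mem.mpr (h i)⟩
  have hredsurj : Function.Surjective red := fun y => by
    choose x hx using fun i => Ideal.Quotient.mk_surjective (y i)
    exact ⟨Pulled.out.symm x, funext hx⟩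
  let redQ : (N ⧸ Ideal.ofList rs • (⊤ : Submodule P N)) →+ (Fin s → Q) :=
    QuotientAddGroup.lift (Ideal.ofList rs • (⊤ : Submodule P N)).toAddSubgroup red
      fun x hx => (hred x).mpr hx
  have hredQ : Function.Bijective redQ := by
    refine ⟨(injective_iff_map_eq_zero redQ).mpr fun y hy => ?_, fun y => ?_⟩
    · obtain ⟨x, rfl⟩ := Submodule.Quotient.mk_surjective _ y
      exact (Submodule.Quotient.mk_eq_zero _).mpr ((hred x).mp hy)
    · obtain ⟨x, rfl⟩ := hredsurj y
      exact ⟨Submodule.Quotient.mk x, rfl⟩
  haveI : Finite (N ⧸ Ideal.ofList rs • (⊤ : Submodule P N)) := Finite.of_injective redQ hredQ.1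
  -- finiteness
  haveI : IsHausdorff (maximalIdeal P) N := ⟨fun x hx => by
    refine Pulled.out_injective ?_
    rw [map_zero]
    funext i
    refine IsHausdorff.haus (I := maximalIdeal P) (M := P) inferInstance _ fun k => ?_
    rw [SModEq.zero, smul_eq_mul, Ideal.mul_top]
    have h := hx (e * k)
    rw [SModEq.zero] at h
    refine Submodule.smul_induction_on (p := fun y => Pulled.out y i ∈ maximalIdeal P ^ k) h
      (fun a ha y _ => ?_) fun y z hy hz => ?_
    · rw [Pulled.out_smul, Matrix.mulVec, dotProduct]
      exact Ideal.sum_mem _ fun l _ => Ideal.mul_mem_right _ _ (hcont k a ha i l)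
    · rw [map_add, Pi.add_apply]; exact add_mem hy hz⟩
  haveI : Fintype (Fin s → Q) := Fintype.ofFinite _
  choose lift hlift using hredsurj
  haveI : Module.Finite P N := by
    haveI : IsAdicComplete (maximalIdeal P) ((Fin s → Q) → P) :=
      IsAdicComplete.of_module_finite (maximalIdeal P) _
    let L : ((Fin s → Q) → P) →ₗ[P] N := Fintype.linearCombination P lift
    refine Module.Finite.of_surjective L
      (surjective_of_mkQ_comp_surjective (I := maximalIdeal P) fun y => ?_)
    obtain ⟨x, rfl⟩ := Submodule.mkQ_surjective _ y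
    refine ⟨Pi.single (red x) 1, ?_⟩
    simp only [LinearMap.comp_apply, L, Fintype.linearCombination_apply_single, one_smul,
      Submodule.mkQ_apply]
    rw [Submodule.Quotient.eq]
    refine Submodule.smul_mono hJm le_rfl ((hred _).mp ?_)
    rw [map_sub, hlift, sub_self]
  -- freeness
  haveI : Module.Free P N := by
    refine Patching.free_of_isWeaklyRegular_of_isFiniteLength rs ?_ hmem
      (isFiniteLength_iff_isNoetherian_isArtinian.2 ⟨inferInstance, inferInstance⟩)
      (projectiveDimension_residue_le hϖ)
    refine ((Pulled.out (f := (Θ : P →+* Ms))).isWeaklyRegular_congr (as := rs) (bs := rs) ?_).2 ?_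
    · rw [List.forall₂_same]
      exact fun a ha x => Pulled.out_smul_of_scalar (hscal a ha) x
    · have h := (isWeaklyRegular_sqParams (r := r) hϖ.ne_zero).isWeaklyRegular_lTensor
        (M₂ := Fin s → P)
      exact ((TensorProduct.rid P (Fin s → P)).isWeaklyRegular_congr _).1 h
  -- the rank
  let b := Module.Free.chooseBasis P N
  let ι := Module.Free.ChooseBasisIndex P N
  let red' : N →+ (ι → Q) :=
    { toFun := fun x i => Ideal.Quotient.mk _ (b.repr x i)
      map_zero' := by ext i; simp
      map_add' := fun x y => by ext i; simp }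
  have hred' : ∀ x : N, red' x = 0 ↔ x ∈ Ideal.ofList rs • (⊤ : Submodule P N) := fun x => by
    refine ⟨fun h => ?_, fun h => ?_⟩
    · rw [← b.sum_repr x]
      exact Submodule.sum_mem _ fun i _ => Submodule.smul_mem_smul
        (Ideal.Quotient.eq_zero_iff_mem.mp (congrFun h i)) Submodule.mem_top
    · refine funext fun i => Ideal.Quotient.eq_zero_iff_mem.mpr ?_
      refine Submodule.smul_induction_on (p := fun y => b.repr y i ∈ Ideal.ofList rs) h
        (fun a ha y _ => ?_) fun y z hy hz => ?_
      · rw [map_smul, Finsupp.smul_apply, smul_eq_mul]; exact Ideal.mul_mem_right _ _ ha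
      · rw [map_add, Finsupp.add_apply]; exact add_mem hy hz
  let redQ' : (N ⧸ Ideal.ofList rs • (⊤ : Submodule P N)) →+ (ι → Q) :=
    QuotientAddGroup.lift (Ideal.ofList rs • (⊤ : Submodule P N)).toAddSubgroup red'
      fun x hx => (hred' x).mpr hx
  have hredQ' : Function.Bijective redQ' := by
    refine ⟨(injective_iff_map_eq_zero redQ').mpr fun y hy => ?_, fun y => ?_⟩
    · obtain ⟨x, rfl⟩ := Submodule.Quotient.mk_surjective _ y
      exact (Submodule.Quotient.mk_eq_zero _).mpr ((hred' x).mp hy)
    · choose c hc using fun i => Ideal.Quotient.mk_surjective (y i)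
      refine ⟨Submodule.Quotient.mk (∑ i, c i • b i), funext fun i => ?_⟩
      show Ideal.Quotient.mk _ (b.repr (∑ j, c j • b j) i) = y i
      rw [b.repr_sum_self, hc]
  haveI : Nontrivial Q := Ideal.Quotient.nontrivial_iff.mpr
    (ne_top_of_le_ne_top (maximalIdeal.isMaximal P).ne_top hJm)
  have hcard := Nat.card_congr ((Equiv.ofBijective _ hredQ).symm.trans (Equiv.ofBijective _ hredQ'))
  rw [Nat.card_fun, Nat.card_fun, Nat.card_fin] at hcard
  exact ⟨b.reindex (Finite.equivFinOfCardEq (Nat.pow_right_injective Finite.one_lt_card hcard.symm))⟩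

variable {Y : Type} [CommRing Y] [Algebra O Y]

/-- The parameters agree. -/
theorem map_sqParam_eq {Φ : P →ₐ[O] Ms} {j : Fin r} {g : P} (φ : P →ₐ[O] P) (hφ : φ (X j) = g)
    (hrel : relMat j (Φ g) = 0) : Φ (φ (sqParam j)) = algebraMap P Ms (sqParam j) := by
  set y := algebraMap P Ms (X j) with hy
  have hc : Commute y (Φ g) := Algebra.commutes _ _
  have h1 : y * y * (1 + Φ g) = Φ g * Φ g * (1 + y) := by
    have e : relMat j (Φ g) = y * y * (1 + Φ g) - Φ g * Φ g * (1 + y) := by
      rw [relMat, ← hy]
      simp only [mul_add, add_mul, mul_sub, sub_mul, mul_one, one_mul, mul_assoc, hc.eq]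
      simp only [← mul_assoc, hc.eq]
      abel
    rwa [e, sub_eq_zero] at hrel
  set w := algebraMap P Ms (invOfUnit (1 + X j) 1) with hw
  have hwy : (1 + y) * w = 1 := by
    rw [hw, hy, ← map_one (algebraMap P Ms), ← map_add, ← map_mul, one_add_X_mul_inv]
  set v := Φ (φ (invOfUnit (1 + X j) 1)) with hv
  have hgv : (1 + Φ g) * v = 1 := by
    rw [hv, ← hφ, show (1 : Ms) = Φ (φ 1) by rw [map_one, map_one], ← map_add, ← map_add, ← map_mul,
      ← map_mul, one_add_X_mul_inv]
  rw [sqParam, map_mul, map_mul, map_mul, map_pow, map_pow, map_pow, hφ, ← hy, ← hw, ← hv, pow_two,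
    pow_two]
  calc Φ g * Φ g * v = Φ g * Φ g * ((1 + y) * w) * v := by rw [hwy, mul_one]
    _ = w * (Φ g * Φ g * (1 + y)) * v := by
      rw [← mul_assoc _ (1 + y), (Algebra.commutes (invOfUnit (1 + X j) 1) _).symm]
    _ = y * y * w := by
      rw [← h1, mul_assoc w, mul_assoc (y * y), hgv, mul_one]
      exact Algebra.commutes _ _

/-- **Freeness over the minimal ring and complete intersection.** -/
theorem free_of_limit (hs : 0 < s) (e : ℕ) (ξ : Y →ₐ[O] Matrix (Fin s) (Fin s) O)
    (Φ : P →ₐ[O] Ms) (ψ : P →ₐ[O] Y) (G : Fin r → P) (hψ : Function.Surjective ψ)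
    (hG : ∀ j, ψ (G j) = 0) (hrel : ∀ j, relMat j (Φ (G j)) = 0)
    (hred : ∀ f, (Φ f).map constantCoeff = ξ (ψ f))
    (hcont : ∀ k, ∀ f ∈ maximalIdeal P ^ (e * k), ∀ i j, Φ f i j ∈ maximalIdeal P ^ k)
    [Nontrivial Y] :
    letI : Module Y (Fin s → O) := Module.compHom _ (Matrix.toLinAlgEquiv'.toAlgHom.comp ξ).toRingHom
    Module.Free Y (Fin s → O) ∧ Module.annihilator Y (Fin s → O) = ⊥ ∧
      RingHom.ker ψ = Ideal.span (Set.range G) := by
  classical
  letI : Module Y (Fin s → O) := Module.compHom _ (Matrix.toLinAlgEquiv'.toAlgHom.comp ξ).toRingHom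
  haveI : NeZero s := ⟨hs.ne'⟩
  have hGm : ∀ j, G j ∈ maximalIdeal P := fun j => by
    rw [mem_maximalIdeal, mem_nonunits_iff]
    intro hu
    have h0 := hu.map ψ
    rw [hG j] at h0
    exact not_isUnit_zero h0
  obtain ⟨φ, hφ⟩ := LL.exists_eval (O := O) G hGm
  haveI : IsLocalHom (φ : P →+* P) := by
    obtain ⟨ϖ, hϖ⟩ := IsDiscreteValuationRing.exists_irreducible O
    have hle : maximalIdeal P ≤ (maximalIdeal P).comap (φ : P →+* P) := by
      conv_lhs => rw [LL.maximalIdeal_eq_sup hϖ]
      rw [sup_le_iff, Ideal.span_le, Ideal.span_le, Set.singleton_subset_iff]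
      constructor
      · rintro _ ⟨i, rfl⟩
        rw [SetLike.mem_coe, Ideal.mem_comap]
        show φ (X i) ∈ _
        rw [hφ]; exact hGm i
      · rw [SetLike.mem_coe, Ideal.mem_comap]
        show φ (C ϖ) ∈ _
        rw [c_eq_algebraMap, AlgHom.commutes, ← c_eq_algebraMap, mem_maximalIdeal, mem_nonunits_iff,
          isUnit_iff_constantCoeff, constantCoeff_C]
        exact hϖ.not_isUnit
    refine ⟨fun a ha => ?_⟩
    by_contra hna
    exact (mem_maximalIdeal _).mp (hle ((mem_maximalIdeal a).mpr hna)) ha
  have hψφ : ∀ a, ψ (φ a) = algebraMap O Y (constantCoeff a) := fun a => by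
    have hmem : a - C (constantCoeff a) ∈ Ideal.span (Set.range fun i : Fin r => (X i : P)) := by
      rw [← Patching.ofList_X, Patching.mem_ofList_X_iff]; simp
    have hle : Ideal.span (Set.range fun i : Fin r => (X i : P)) ≤ RingHom.ker (ψ.comp φ) := by
      rw [Ideal.span_le]; rintro _ ⟨i, rfl⟩
      show ψ (φ (X i)) = 0
      rw [hφ, hG]
    have h := hle hmem
    rw [RingHom.mem_ker, map_sub, sub_eq_zero, c_eq_algebraMap, AlgHom.commutes] at h
    exact h
  obtain ⟨b⟩ := exists_basis_pulled (Φ.comp φ)
    (fun j => map_sqParam_eq φ (hφ j) (hrel j)) e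
    (fun k a ha => hcont k _ (map_mem_pow (φ : P →+* P) ha)) hs
  -- reduction
  let π : Pulled (Φ : P →+* Ms) →+ (Fin s → O) :=
    (constantCoeff : P →+* O).toAddMonoidHom.compLeft (Fin s) |>.comp Pulled.out.toAddMonoidHom
  have hπ : ∀ x, π x = fun i => constantCoeff (Pulled.out x i) := fun x => rfl
  have hπsmul : ∀ (a : P) x, π (a • x) = ψ a • π x := fun a x => by
    show (fun i => constantCoeff ((Φ a *ᵥ Pulled.out x) i)) = ξ (ψ a) *ᵥ π x
    rw [← hred]
    funext i
    exact RingHom.map_mulVec (constantCoeff : P →+* O) (Φ a) (Pulled.out x) i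
  have hπsurj : Function.Surjective π := fun v =>
    ⟨Pulled.out.symm fun i => C (v i), funext fun i => by simp [hπ]⟩
  let bN : Fin s → Pulled (Φ : P →+* Ms) := fun i => Pulled.out.symm (Pulled.out (b i))
  let tr : Pulled ((Φ.comp φ : P →ₐ[O] Ms) : P →+* Ms) ≃+ Pulled (Φ : P →+* Ms) :=
    Pulled.out.trans Pulled.out.symm
  have htr : ∀ (c : P) x, tr (c • x) = φ c • tr x := fun c x => rfl
  have hcomb : ∀ c : Fin s → P, tr (∑ i, c i • b i) = ∑ i, φ (c i) • bN i := fun c => by
    rw [map_sum]
    exact Finset.sum_congr rfl fun i _ => htr _ _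
  have hspan : ∀ x : Pulled (Φ : P →+* Ms), ∃ c : Fin s → P, x = ∑ i, φ (c i) • bN i := fun x =>
    ⟨fun i => b.repr (tr.symm x) i, by rw [← hcomb, b.sum_repr, AddEquiv.apply_symm_apply]⟩
  let T : (Fin s → O) →ₗ[O] (Fin s → O) := Fintype.linearCombination O fun i => π (bN i)
  have hT : ∀ c : Fin s → P, π (∑ i, φ (c i) • bN i) = T fun i => constantCoeff (c i) := fun c => by
    rw [map_sum, Fintype.linearCombination_apply]
    refine Finset.sum_congr rfl fun i _ => ?_
    rw [hπsmul, hψφ]
    show (Matrix.toLinAlgEquiv'.toAlgHom.comp ξ) (algebraMap O Y _) (π (bN i)) = _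
    rw [AlgHom.commutes, Module.algebraMap_end_apply]
  have hTs : Function.Surjective T := fun v => by
    obtain ⟨x, rfl⟩ := hπsurj v
    obtain ⟨c, rfl⟩ := hspan x
    exact ⟨_, (hT c).symm⟩
  have hTi : Function.Injective T := OrzechProperty.injective_of_surjective_endomorphism T hTs
  let L : Algebra.PatchingLevel O r Y (Fin s → O) (⊥ : Ideal P) :=
    { N := Pulled (Φ : P →+* Ms)
      φ := φ
      ψ := ψ
      ψ_surjective := hψ
      ψ_φ_X := fun i => by rw [hφ, hG]
      π := π
      π_smul := hπsmul
      π_surjective := hπsurj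
      ker_π := fun x => by
        refine ⟨fun hx => ?_, fun hx => ?_⟩
        · obtain ⟨c, rfl⟩ := hspan x
          rw [hT] at hx
          have h0 := hTi (hx.trans (map_zero T).symm)
          refine Submodule.sum_mem _ fun i _ => Submodule.smul_mem_smul ?_ Submodule.mem_top
          have hci : c i ∈ Ideal.span (Set.range fun l : Fin r => (X l : P)) := by
            rw [← Patching.ofList_X, Patching.mem_ofList_X_iff]; exact congrFun h0 i
          have h := Ideal.mem_map_of_mem (φ : P →+* P) hci
          rw [Ideal.map_span, ← Set.range_comp] at h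
          exact h
        · refine Submodule.smul_induction_on (p := fun y => π y = 0) hx (fun a ha y _ => ?_)
            fun y z hy hz => by rw [map_add, hy, hz, add_zero]
          have hle : Ideal.span (Set.range fun i : Fin r => φ (X i)) ≤ RingHom.ker ψ :=
            Ideal.span_le.mpr (by rintro _ ⟨i, rfl⟩; show ψ (φ (X i)) = 0; rw [hφ, hG])
          rw [hπsmul, show ψ a = 0 from hle ha, zero_smul]
      d := s
      b := bN
      b_span := hspan
      b_rel := fun c => by
        rw [← hcomb, AddEquiv.map_eq_zero_iff]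
        constructor
        · intro h i
          rw [Ideal.mem_bot]
          exact Fintype.linearIndependent_iff.1 b.linearIndependent c h i
        · intro h
          exact Finset.sum_eq_zero fun i _ => by rw [Ideal.mem_bot.mp (h i), zero_smul] }
  obtain ⟨h1, h2, h3⟩ := Patching.free_and_ker_eq L
  refine ⟨h1, h2, ?_⟩
  rw [show Set.range G = Set.range fun i : Fin r => φ (X i) by simp only [hφ]]
  exact h3

end Fermat.Agent.R59
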