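/-
S59, unit G: recentring a complete intersection presentation at a point.
-/
import Fermat.Agent.LL.Algebra.Eval
import Fermat.Agent.R59.Min.Limit

set_option autoImplicit false
set_option linter.unusedSectionVars false

noncomputable section

open IsLocalRing MvPowerSeries

namespace Fermat.Agent.R59

variable {O : Type} [CommRing O] [IsDomain O] [IsDiscreteValuationRing O]
  [IsAdicComplete (maximalIdeal O) O] [Finite (ResidueField O)] {r : ℕ}

local notation "P" => MvPowerSeries (Fin r) O

/-- Endomorphisms agreeing on the variables agree. -/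
theorem endo_ext {f g : P →ₐ[O] P} (hf : ∀ i, f (X i) ∈ maximalIdeal P)
    (hfg : ∀ i, f (X i) = g (X i)) : f = g := by
  refine AlgHom.ext fun a => sub_eq_zero.mp
    (IsHausdorff.haus (I := maximalIdeal P) (M := P) inferInstance _ fun k => ?_)
  rw [SModEq.zero, smul_eq_mul, Ideal.mul_top]
  induction k generalizing a with
  | zero => simp
  | succ k ih =>
    have hmem : a - C (constantCoeff a) ∈ Ideal.span (Set.range fun i : Fin r => (X i : P)) := by
      rw [← Patching.ofList_X, Patching.mem_ofList_X_iff]; simp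
    rw [Ideal.mem_span_range_iff_exists_fun] at hmem
    obtain ⟨w, hw⟩ := hmem
    have ha : a = C (constantCoeff a) + ∑ i, w i * X i := by rw [hw]; ring
    rw [ha]
    simp only [map_add, map_sum, map_mul, c_eq_algebraMap, AlgHom.commutes, add_sub_add_left_eq_sub,
      ← hfg, ← Finset.sum_sub_distrib, ← sub_mul, pow_succ]
    exact Ideal.sum_mem _ fun i _ => Ideal.mul_mem_mul (ih (w i)) (hf i)

/-- A presentation may be centred at a point. -/
theorem exists_recentre {T : Type} [CommRing T] [IsLocalRing T] [Algebra O T]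
    (π : T →ₐ[O] O) (ψ : P →ₐ[O] T) (hψ : Function.Surjective ψ) (G : Fin r → P)
    (hker : RingHom.ker ψ = Ideal.span (Set.range G)) :
    ∃ (ψ' : P →ₐ[O] T) (G' : Fin r → P), Function.Surjective ψ' ∧ (∀ i, π (ψ' (X i)) = 0) ∧
      RingHom.ker ψ' = Ideal.span (Set.range G') := by
  haveI : IsLocalHom (ψ : P →+* T) := IsLocalHom.of_surjective _ hψ
  set c : Fin r → O := fun i => π (ψ (X i)) with hc
  have hcm : ∀ i, c i ∈ maximalIdeal O := by
    intro i
    rw [mem_maximalIdeal, mem_nonunits_iff]
    intro hu
    have h1 : IsUnit (algebraMap O T (c i)) := hu.map _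
    have hXm : ψ (X i) ∈ maximalIdeal T := by
      refine (mem_maximalIdeal _).mpr (map_nonunit (ψ : P →+* T) _ ?_)
      rw [mem_maximalIdeal, mem_nonunits_iff, isUnit_iff_constantCoeff, constantCoeff_X]
      exact not_isUnit_zero
    have hd : IsUnit (ψ (X i) - algebraMap O T (c i)) := by
      by_contra hn
      exact (mem_maximalIdeal _).mp (sub_sub_cancel (ψ (X i)) (algebraMap O T (c i)) ▸
        sub_mem hXm ((mem_maximalIdeal _).mpr hn)) h1
    have := hd.map π
    rw [map_sub, AlgHom.commutes, Algebra.algebraMap_self, RingHom.id_apply, sub_self] at this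
    exact not_isUnit_zero this
  have hm : ∀ (c : Fin r → O), (∀ i, c i ∈ maximalIdeal O) →
      ∀ i, (X i + C (c i) : P) ∈ maximalIdeal P := fun c hc i => by
    rw [mem_maximalIdeal, mem_nonunits_iff, isUnit_iff_constantCoeff, map_add, constantCoeff_X,
      constantCoeff_C, zero_add]
    exact hc i
  obtain ⟨τ, hτ⟩ := LL.exists_eval (O := O) (fun i => (X i + C (c i) : P)) (hm c hcm)
  obtain ⟨τ', hτ'⟩ := LL.exists_eval (O := O) (fun i => (X i + C (-c i) : P))
    (hm _ fun i => neg_mem (hcm i))
  have h1 : τ.comp τ' = AlgHom.id O P := by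
    refine (endo_ext (f := AlgHom.id O P) (fun i => ?_) fun i => ?_).symm
    · rw [AlgHom.id_apply, mem_maximalIdeal, mem_nonunits_iff, isUnit_iff_constantCoeff, constantCoeff_X]
      exact not_isUnit_zero
    · rw [AlgHom.comp_apply, hτ', map_add, hτ, c_eq_algebraMap, AlgHom.commutes, map_neg]
      simp
  have h2 : τ'.comp τ = AlgHom.id O P := by
    refine (endo_ext (f := AlgHom.id O P) (fun i => ?_) fun i => ?_).symm
    · rw [AlgHom.id_apply, mem_maximalIdeal, mem_nonunits_iff, isUnit_iff_constantCoeff, constantCoeff_X]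
      exact not_isUnit_zero
    · rw [AlgHom.comp_apply, hτ, map_add, hτ', c_eq_algebraMap, AlgHom.commutes, map_neg]
      simp
  let E : P ≃ₐ[O] P := AlgEquiv.ofAlgHom τ' τ h2 h1
  refine ⟨ψ.comp τ', fun i => τ (G i), hψ.comp E.surjective, fun i => ?_, ?_⟩
  · rw [AlgHom.comp_apply, hτ', map_add, map_add, c_eq_algebraMap, AlgHom.commutes,
      AlgHom.commutes, map_neg]
    simp [hc]
  · ext a
    rw [RingHom.mem_ker, AlgHom.comp_apply]
    constructor
    · intro ha
      have hmem : τ' a ∈ RingHom.ker ψ := ha
      rw [hker] at hmem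
      have h := Ideal.mem_map_of_mem (τ : P →+* P) hmem
      rw [Ideal.map_span, ← Set.range_comp] at h
      have e : (τ : P →+* P) (τ' a) = a := AlgHom.congr_fun h1 a
      rwa [e] at h
    · intro ha
      have h := Ideal.mem_map_of_mem (τ' : P →+* P) ha
      rw [Ideal.map_span, ← Set.range_comp] at h
      have e : Set.range ((τ' : P →+* P) ∘ fun i => τ (G i)) = Set.range G := by
        congr 1; funext i; exact AlgHom.congr_fun h2 (G i)
      rw [e, ← hker] at h
      exact h

end Fermat.Agent.R59
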