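/-
S59, unit G: the diagonal form of a lift at a Taylor-Wiles prime `v`: inertia acts through a
character `χ ≡ 1`, determined by the traces of `τ` and `φ τ`.
-/
import Fermat.Agent.R59.Defs
import Fermat.Agent.R59.Min.AuxUnramified
import Fermat.Agent.TW.Algebra

set_option autoImplicit false
set_option linter.style.haveILetI false

noncomputable section

open IsLocalRing Matrix
open Fermat.Agent.Galois (GQ)
open Fermat.Agent.Deform (Mat2 HasMatrix RHasMatrix mapHom MatCts)

namespace Fermat.Agent.R59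

section Mat

variable {A : Type} [CommRing A] [IsLocalRing A]

/-- Powers of a matrix congruent to one: diagonal and off-diagonal entries. -/
theorem pow_offdiag {U : Mat2 A} (h : ∀ i j, (U - 1) i j ∈ maximalIdeal A) (n : ℕ) :
    ∀ i j, ((U ^ n) i i - 1 ∈ maximalIdeal A) ∧
      (i ≠ j → ∃ c, c - (n : A) ∈ maximalIdeal A ∧ (U ^ n) i j = c * U i j) := by
  induction n with
  | zero =>
    refine fun i j => ⟨by simp, fun hij => ⟨0, by simp, by simp [Matrix.one_apply_ne hij]⟩⟩
  | succ n ih =>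
    intro i j
    have hdiag : ∀ l, U l l - 1 ∈ maximalIdeal A := fun l => by simpa using h l l
    have hoff : ∀ l m, l ≠ m → U l m ∈ maximalIdeal A := fun l m hlm => by
      simpa [Matrix.one_apply_ne hlm] using h l m
    constructor
    · obtain ⟨l, hl⟩ : ∃ l, l ≠ i := ⟨i + 1, by fin_cases i <;> decide⟩
      have e : (U ^ (n + 1)) i i = (U ^ n) i i * U i i + (U ^ n) i l * U l i := by
        rw [pow_succ, Matrix.mul_apply, Fin.sum_univ_two]
        fin_cases i <;> fin_cases l <;> first | exact absurd rfl hl | simp [add_comm]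
      rw [e, show (U ^ n) i i * U i i + (U ^ n) i l * U l i - 1 =
        ((U ^ n) i i - 1) * U i i + (U i i - 1) + (U ^ n) i l * U l i by ring]
      exact add_mem (add_mem (Ideal.mul_mem_right _ _ (ih i i).1) (hdiag i))
        (Ideal.mul_mem_left _ _ (hoff l i hl))
    · intro hij
      obtain ⟨c, hc, hcU⟩ := (ih i j).2 hij
      refine ⟨(U ^ n) i i + c * U j j, ?_, ?_⟩
      · rw [Nat.cast_succ, show (U ^ n) i i + c * U j j - ((n : A) + 1) =
          ((U ^ n) i i - 1) + (c - (n : A)) * U j j + (n : A) * (U j j - 1) by ring]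
        exact add_mem (add_mem (ih i i).1 (Ideal.mul_mem_right _ _ hc))
          (Ideal.mul_mem_left _ _ (hdiag j))
      · rw [pow_succ, Matrix.mul_apply, Fin.sum_univ_two, add_mul, mul_assoc, mul_comm (U j j),
          ← mul_assoc, ← hcU]
        fin_cases i <;> fin_cases j <;> first | exact absurd rfl hij | simp [add_comm]

/-- A residually split matrix with distinct eigenvalues is diagonalisable. -/
theorem exists_diagonalise [IsAdicComplete (maximalIdeal A) A] {k : Type} [Field k]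
    (ψ : k →+* ResidueField A) {F : Mat2 A} {F₀ : Mat2 k} (hF : F.map (residue A) = F₀.map ψ)
    {α₀ β₀ : k} (hne : α₀ ≠ β₀)
    (hchar : F₀.charpoly = (Polynomial.X - Polynomial.C α₀) * (Polynomial.X - Polynomial.C β₀)) :
    ∃ (P : (Mat2 A)ˣ) (α β : A), residue A α = ψ α₀ ∧ residue A β = ψ β₀ ∧
      F * P = P * Matrix.diagonal ![α, β] := by
  have hchar' := hchar
  rw [Matrix.charpoly_fin_two] at hchar'
  have e1 := congrArg (fun Q => Polynomial.coeff Q 1) hchar'
  have e0 := congrArg (fun Q => Polynomial.coeff Q 0) hchar'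
  simp [Polynomial.coeff_X_pow, Polynomial.coeff_X, sub_mul, mul_sub] at e0 e1
  have hF' : ∀ i j, residue A (F i j) = ψ (F₀ i j) := fun i j => congrFun (congrFun hF i) j
  have ht : residue A F.trace = ψ α₀ + ψ β₀ := by
    rw [Matrix.trace_fin_two, map_add, hF', hF', ← map_add, ← Matrix.trace_fin_two, ← map_add]
    congr 1
    linear_combination -e1
  have hd : residue A F.det = ψ α₀ * ψ β₀ := by
    rw [Matrix.det_fin_two, map_sub, map_mul, map_mul, hF', hF', hF', hF', ← map_mul, ← map_mul,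
      ← map_sub, ← Matrix.det_fin_two, ← map_mul, e0]
  obtain ⟨a₀, ha₀⟩ := residue_surjective (ψ α₀)
  obtain ⟨α, hα, hαa⟩ := HenselianRing.is_henselian (I := maximalIdeal A)
    (Polynomial.X ^ 2 - Polynomial.C F.trace * Polynomial.X + Polynomial.C F.det)
    (by
      rw [sub_add]
      exact Polynomial.monic_X_pow_sub (lt_of_le_of_lt (Polynomial.degree_sub_le _ _)
        (max_lt (lt_of_le_of_lt (Polynomial.degree_C_mul_X_le _) (by exact_mod_cast one_lt_two))
          (lt_of_le_of_lt Polynomial.degree_C_le (by exact_mod_cast two_pos)))))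
    a₀ (by
      rw [← residue_eq_zero_iff]
      simp [ht, hd, ha₀]
      ring)
    (by
      refine Ne.isUnit (G₀ := ResidueField A) (?_ : residue A _ ≠ 0)
      simp [ht, ha₀]
      rw [show (1 + 1) * ψ α₀ - (ψ α₀ + ψ β₀) = ψ (α₀ - β₀) by rw [map_sub]; ring]
      exact fun h => hne (sub_eq_zero.mp (ψ.injective (h.trans (map_zero ψ).symm))))
  have hαr : residue A α = ψ α₀ := by
    rw [← ha₀, ← sub_eq_zero, ← map_sub, residue_eq_zero_iff]; exact hαa
  have hαeq : α ^ 2 - F.trace * α + F.det = 0 := by simpa using hα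
  set β := F.trace - α with hβ
  have hβr : residue A β = ψ β₀ := by rw [hβ, map_sub, ht, hαr, add_sub_cancel_left]
  obtain ⟨x, hx, hxe⟩ := TW.exists_eigenvector hchar
  obtain ⟨y, hy, hye⟩ := TW.exists_eigenvector (hchar.trans (mul_comm _ _))
  choose lift hlift using residue_surjective (R := A)
  let vec : A → (Fin 2 → k) → Fin 2 → A := fun γ u => fun i =>
    (∑ j, F i j * lift (ψ (u j))) - γ * lift (ψ (u i))
  have hvec : ∀ (γ : A) (γ₀ δ₀ : k) (u : Fin 2 → k), residue A γ = ψ γ₀ → F₀ *ᵥ u = δ₀ • u →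
      ∀ i, residue A (vec γ u i) = ψ ((δ₀ - γ₀) * u i) := fun γ γ₀ δ₀ u hγ hu i => by
    have h1 := congrFun hu i
    simp only [Matrix.mulVec, dotProduct, Pi.smul_apply, smul_eq_mul] at h1
    simp only [vec, map_sub, map_sum, map_mul, hF', hlift, hγ, sub_mul]
    have h2 := congrArg ψ h1
    simp only [map_sum, map_mul] at h2
    rw [h2]
  let P : Mat2 A := Matrix.of fun i j => ![vec β x i, vec α y i] j
  have hPu : IsUnit P := by
    rw [Matrix.isUnit_iff_isUnit_det, Matrix.det_fin_two]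
    by_contra hnu
    have h0 := (residue_eq_zero_iff _).mpr hnu
    simp only [P, Matrix.of_apply, Matrix.cons_val_zero, Matrix.cons_val_one] at h0
    rw [map_sub, map_mul, map_mul, hvec β β₀ α₀ x hβr hxe 0, hvec β β₀ α₀ x hβr hxe 1,
      hvec α α₀ β₀ y hαr hye 0, hvec α α₀ β₀ y hαr hye 1, ← map_mul, ← map_mul, ← map_sub,
      map_eq_zero] at h0
    have h1 : (α₀ - β₀) * (β₀ - α₀) * (x 0 * y 1 - x 1 * y 0) = 0 := by linear_combination h0
    have h2 := ((mul_eq_zero.mp h1).resolve_left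
      (mul_ne_zero (sub_ne_zero.mpr hne) (sub_ne_zero.mpr hne.symm)))
    obtain ⟨c, hc, hcxy⟩ := TW.exists_smul_eq_of_cross hx hy h2
    rw [← hcxy, Matrix.mulVec_smul, hxe, smul_comm] at hye
    exact hne (smul_left_injective k (smul_ne_zero hc hx) hye)
  refine ⟨hPu.unit, α, β, hαr, hβr, ?_⟩
  show F * P = P * _
  rw [Matrix.trace_fin_two] at hβ hαeq
  rw [Matrix.det_fin_two] at hαeq
  ext i j
  fin_cases i <;> fin_cases j <;>
    simp [P, vec, hβ, Matrix.mul_apply, Fin.sum_univ_two, Matrix.diagonal] <;>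
    first
      | linear_combination -(lift (ψ (x 0))) * hαeq
      | linear_combination -(lift (ψ (x 1))) * hαeq
      | linear_combination -(lift (ψ (y 0))) * hαeq
      | linear_combination -(lift (ψ (y 1))) * hαeq

end Mat

variable {p : ℕ} [Fact p.Prime] {O : Type} [CommRing O] [IsDomain O] [IsDiscreteValuationRing O]
  [IsAdicComplete (maximalIdeal O) O] [Finite (ResidueField O)]
  [Algebra ℤ_[p] O] [Module.Finite ℤ_[p] O] [CharZero O]
  {ρbar : ResidualGaloisRep (ResidueField O)} {N : ℕ} [NeZero N] {U aux S : Finset ℕ} {a : ℕ → O}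
  {ord : Bool}

/-- The cyclotomic determinant is one on inertia away from `p`. -/
theorem det_inertia {A : Type} [CommRing A] [IsLocalRing A] [IsAdicComplete (maximalIdeal A) A]
    {ρ : GaloisRepAdic A} (hd : ρ.DetIsCyclotomic p) {v : ℕ} (hv : v.Prime) (hvp : v ≠ p)
    {P : ValuationSubring (AlgebraicClosure ℚ)} (hP : P.LiesOverPrime v) {τ : GQ}
    (hτ : τ ∈ P.inertiaSubgroupIn ℚ) : LinearMap.det (ρ.ρ τ) = 1 := by
  refine sub_eq_zero.mp (IsHausdorff.haus (I := maximalIdeal A) (M := A) inferInstance _ fun n => ?_)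
  rw [SModEq.zero, smul_eq_mul, Ideal.mul_top]
  have h := hd.2 n τ 1 fun μ hμ => by
    rcases Nat.eq_zero_or_pos n with rfl | hn
    · rw [pow_zero, pow_one] at hμ
      rw [hμ, map_one, one_pow]
    rw [pow_one, GalRep.cyc_spec p τ μ hμ, GalRep.cyc_inertia p hv hvp hP hτ, Units.val_one, map_one]
    haveI : Fact (1 < p ^ n) := ⟨Nat.one_lt_pow (by omega) (Fact.out : p.Prime).one_lt⟩
    rw [ZMod.val_one, pow_one]
  rw [Nat.cast_one] at h
  refine (Ideal.span_singleton_le_iff_mem _).mpr ?_ h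
  rw [Nat.cast_pow]
  exact Ideal.pow_mem_pow hd.1 n

/-- **The character at a Taylor-Wiles prime.** -/
theorem exists_tw_char (H : Seed p O ρbar N U aux S a ord) (Y : Lift p O ρbar) {v : ℕ}
    (hv : v.Prime) (hvS : v ∉ S) (hv1 : v ≡ 1 [MOD p]) (hav : residue O (a v) ^ 2 ≠ 4)
    {P : ValuationSubring (AlgebraicClosure ℚ)} (hP : P.LiesOverPrime v) {φ τ : GQ}
    (hφ : P.IsFrobeniusAt φ v) (hτ : τ ∈ P.inertiaSubgroupIn ℚ) :
    ∃ χ χ' α β : Y.R, χ * χ' = 1 ∧ χ - 1 ∈ maximalIdeal Y.R ∧ IsUnit (α - β) ∧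
      Y.ρ.trace τ = χ + χ' ∧ Y.ρ.trace φ = α + β ∧ Y.ρ.trace (φ * τ) = α * χ + β * χ' := by
  classical
  have hp : p.Prime := Fact.out
  have hvp : v ≠ p := fun e => hvS (e ▸ H.p_mem)
  have hvU : v ∉ U := fun h => hvS (H.level_mem v hv ((H.dvd_iff v hv hvp).mpr (.inl h)))
  haveI : CharP (ResidueField O) p := (CharP.charP_iff_prime_eq_zero Fact.out).mpr (by
    rw [← map_natCast (residue O), residue_eq_zero_iff]; exact H.p_mem_maximal)
  have hvk : (v : ResidueField O) = 1 := by
    rw [← Nat.cast_one, CharP.natCast_eq_natCast (ResidueField O) p]; exact hv1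
  let b := Module.finBasisOfFinrankEq (ResidueField O) ρbar.V ρbar.finrank_eq
  set R : GQ →* Mat2 (ResidueField O) := residMat ρbar b with hRdef
  set ψ := ResidueField.map (algebraMap O Y.R)
  obtain ⟨r, hr, hrR⟩ := exists_lifting_matrix Y.residual
    (show RHasMatrix ρbar R from ⟨b, fun σ => rfl⟩)
  obtain ⟨bas, hbas⟩ := id hr
  obtain ⟨α₀, β₀, hchar⟩ := (H.twHyp b).split φ
  have hne : α₀ ≠ β₀ := by
    intro e
    subst e
    have hc2 := (LinearMap.charpoly_toMatrix (ρbar.ρ φ) b).symm.trans hchar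
    rw [H.charpoly_frob v hv hvp hvU P hP φ hφ] at hc2
    have e1 := congrArg (fun Q => Polynomial.coeff Q 1) hc2
    have e0 := congrArg (fun Q => Polynomial.coeff Q 0) hc2
    simp [Polynomial.coeff_X_pow, Polynomial.coeff_X, Polynomial.coeff_one, sub_mul, mul_sub, hvk] at e0 e1
    refine hav ?_
    linear_combination (-(residue O (a v)) - 2 * α₀) * e1 - 4 * e0
  obtain ⟨W, α, β, hα, hβ, hW⟩ := exists_diagonalise ψ (hrR φ) hne hchar
  have hI : ∀ σ ∈ P.inertiaSubgroupIn ℚ, ∀ i j, (r σ - 1) i j ∈ maximalIdeal Y.R := by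
    intro σ hσ i j
    rw [← residue_eq_zero_iff, Matrix.sub_apply, map_sub, sub_eq_zero]
    have h := congrFun (congrFun (hrR σ) i) j
    rw [Matrix.map_apply] at h
    rw [h, hRdef, residMat, MonoidHom.comp_apply, H.unramified v hv hvp hvU P hP σ hσ, map_one,
      Matrix.map_apply]
    rcases eq_or_ne i j with rfl | hij
    · simp
    · simp [Matrix.one_apply_ne hij]
  have hres' : ∀ {x : Y.R}, residue Y.R x ≠ 0 → IsUnit x := fun {x} hx => by
    by_contra hxu
    exact hx ((residue_eq_zero_iff x).mpr hxu)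
  have hvu : IsUnit (v : Y.R) := hres' (by
    rw [map_natCast, ← map_natCast ψ, hvk, map_one]; exact one_ne_zero)
  set M : Mat2 Y.R := (↑W⁻¹ : Mat2 Y.R) * r τ * W with hM
  have hMc : ∀ n : ℕ, M ^ n = (↑W⁻¹ : Mat2 Y.R) * r τ ^ n * W := fun n => Units.conj_pow' W (r τ) n
  have hrel : Matrix.diagonal ![α, β] * M = M ^ v * Matrix.diagonal ![α, β] := by
    have hD : Matrix.diagonal ![α, β] = (↑W⁻¹ : Mat2 Y.R) * r φ * W := by
      rw [mul_assoc, hW, Units.inv_mul_cancel_left]
    rw [hMc, hD, hM]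
    simp only [mul_assoc, Units.mul_inv_cancel_left]
    congr 1
    rw [← mul_assoc, frob_mul_inertia hr.matCts hv hvu hP hφ hτ hI, mul_assoc]
  have hM1 : ∀ i j, (M - 1) i j ∈ maximalIdeal Y.R := fun i j => by
    rw [show M - 1 = (↑W⁻¹ : Mat2 Y.R) * (r τ - 1) * W by
      rw [mul_sub, sub_mul, mul_one, Units.inv_mul, hM], Matrix.mul_apply]
    refine Ideal.sum_mem _ fun x _ => Ideal.mul_mem_right _ _ ?_
    rw [Matrix.mul_apply]
    exact Ideal.sum_mem _ fun y _ => Ideal.mul_mem_left _ _ (hI τ hτ _ _)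
  have hoff : ∀ i j : Fin 2, i ≠ j → M i j = 0 := by
    intro i j hij
    obtain ⟨c, hc, hcM⟩ := (pow_offdiag hM1 v i j).2 hij
    have h := congrFun (congrFun hrel i) j
    rw [Matrix.diagonal_mul, Matrix.mul_diagonal, hcM, mul_right_comm] at h
    have hc0 : residue Y.R c = 1 := by
      have h0 := (residue_eq_zero_iff _).mpr hc
      rw [map_sub, map_natCast, ← map_natCast ψ, hvk, map_one, sub_eq_zero] at h0
      exact h0
    refine (hres' (x := ![α, β] i - c * ![α, β] j) ?_).mul_right_eq_zero.mp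
      (by rw [sub_mul, h, sub_self])
    rw [map_sub, map_mul, hc0, one_mul]
    fin_cases i <;> fin_cases j <;> first
      | exact absurd rfl hij
      | (simp only [Matrix.cons_val_zero, Matrix.cons_val_one, Fin.zero_eta, Fin.mk_one, hα, hβ]
         rw [← map_sub]
         intro h0
         have h1 := sub_eq_zero.mp (ψ.injective (h0.trans (map_zero ψ).symm))
         first | exact hne h1 | exact hne h1.symm)
  have htr : ∀ σ, Y.ρ.trace σ = ((↑W⁻¹ : Mat2 Y.R) * r σ * W).trace := fun σ => by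
    rw [hr.trace_eq, Matrix.trace_units_conj' W]
  refine ⟨M 0 0, M 1 1, α, β, ?_, by simpa using hM1 0 0, hres' ?_, ?_, ?_, ?_⟩
  · have h : M.det = 1 := by
      rw [hM, Matrix.det_units_conj' W, ← hbas, LinearMap.det_toMatrix,
        det_inertia Y.det_cyclotomic hv hvp hP hτ]
    rw [Matrix.det_fin_two, hoff 0 1 (by decide)] at h
    simpa using h
  · rw [map_sub, hα, hβ, ← map_sub]
    exact fun h0 => sub_ne_zero.mpr hne (ψ.injective (h0.trans (map_zero ψ).symm))
  · rw [htr, ← hM, Matrix.trace_fin_two]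
  · rw [htr, mul_assoc, hW, Units.inv_mul_cancel_left, Matrix.trace_fin_two]
    simp
  · rw [htr, map_mul, show (↑W⁻¹ : Mat2 Y.R) * (r φ * r τ) * W = Matrix.diagonal ![α, β] * M by
      rw [show Matrix.diagonal ![α, β] = (↑W⁻¹ : Mat2 Y.R) * r φ * W by
        rw [mul_assoc, hW, Units.inv_mul_cancel_left], hM]
      simp only [mul_assoc, Units.mul_inv_cancel_left]]
    simp [Matrix.trace_fin_two, Matrix.diagonal_mul]

/-- Where inertia is trivial the character is trivial. -/
theorem tw_char_eq_one {B : Type} [CommRing B] [IsLocalRing B] {χ χ' α β : B}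
    (hu : IsUnit (α - β)) (h1 : χ + χ' = 2) (h2 : α * χ + β * χ' = α + β) : χ = 1 := by
  refine sub_eq_zero.mp (hu.mul_right_eq_zero.mp ?_)
  linear_combination h2 - β * h1

end Fermat.Agent.R59
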