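/-
S59, unit G: `R = T` at the minimal level, as the inequality of the numerical invariants.

Patch the glued lifts of (level `Q_n`, `Y`) acting on `Levels.LevelData.V`.  With `g_j = χ(τ_j) - 1`
from the diagonalisation at the `j`th prime and `y_j = dia_j - 1` one has
`(y_j - g_j)((1 + g_j)(1 + y_j) - 1) = 0`; the patched module is free over `O⟦y⟧`, hence free over
`O⟦g⟧` of the same rank, and S57 gives freeness of `X₀.M` over `Y` and a complete intersection
presentation; unit D converts this into the inequality.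
-/
import Fermat.Agent.R59.Defs
import Fermat.Agent.R59.Crit.Main
import Fermat.Agent.R59.Crit.Congr
import Fermat.Agent.R59.Crit.Intersection
import Fermat.Agent.R59.Glue
import Fermat.Agent.R59.Levels.Main
import Fermat.Agent.R59.Levels.Part
import Fermat.Agent.R59.Min.Generators
import Fermat.Agent.R59.Min.TWPoint
import Fermat.Agent.R59.Min.LevelLift
import Fermat.Agent.R59.Min.Datum
import Fermat.Agent.R59.Min.Descent
import Fermat.Agent.R59.Min.Recentre

set_option autoImplicit false
set_option linter.style.haveILetI false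
set_option linter.unusedSectionVars false

noncomputable section

open IsLocalRing MvPowerSeries
open Fermat.Agent.Galois (GQ)
open Fermat.Agent.GalRep.Level (cycM)

namespace Fermat.Agent.R59

variable {p : ℕ} [Fact p.Prime] {O : Type} [CommRing O] [IsDomain O] [IsDiscreteValuationRing O]
  [IsAdicComplete (maximalIdeal O) O] [Finite (ResidueField O)]
  [Algebra ℤ_[p] O] [Module.Finite ℤ_[p] O] [CharZero O]
  {ρbar : ResidualGaloisRep (ResidueField O)} {N : ℕ} [NeZero N] {U aux S : Finset ℕ} {a : ℕ → O}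
  {ord : Bool}

/-- Surjectivity of a map of lifts compatible with traces. -/
theorem Lift.IsHom.surjective {X Y : Lift p O ρbar} {σ : X.R →ₐ[O] Y.R} (h : X.IsHom Y σ) :
    Function.Surjective σ := by
  rw [← AlgHom.range_eq_top, eq_top_iff, ← Y.adjoin_trace]
  exact Algebra.adjoin_le (by rintro _ ⟨τ, rfl⟩; exact ⟨_, h τ⟩)

/-- The trace of the identity. -/
theorem Lift.trace_eq_two (Y : Lift p O ρbar) {τ : GQ} (h : Y.ρ.ρ τ = 1) : Y.ρ.trace τ = 2 := by
  haveI : Module.Free Y.R Y.ρ.V :=
    Module.Free.of_basis (Module.finBasisOfFinrankEq Y.R Y.ρ.V Y.ρ.finrank_eq)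
  rw [GaloisRepAdic.trace, h, LinearMap.trace_one, Y.ρ.finrank_eq, Nat.cast_ofNat]

/-- The diamond relation from the trace of inertia. -/
theorem diamond_rel {V : Type} [AddCommGroup V] (A A' D D' : Module.End ℤ V) (hA : A * A' = 1)
    (hD : D' * D = 1) (hAD : A * D = D * A) (hsum : A + A' = D + D') :
    (D - A) * (A * D - 1) = 0 := by
  have h1 : (A + A') * D = D * D + 1 := by rw [hsum, add_mul, hD]
  have h2 : A * (A + A') * D = A * (D * D + 1) := by rw [mul_assoc, h1]
  rw [mul_add, hA, mul_add, mul_one, add_mul, one_mul] at h2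
  rw [sub_mul, mul_sub, mul_sub, mul_one, mul_one, ← mul_assoc D A D, ← hAD, mul_assoc A D D,
    ← mul_assoc A A D]
  rw [← sub_eq_zero] at h2
  rw [← neg_eq_zero, ← h2]
  noncomm_ring

set_option maxHeartbeats 3200000 in
/-- **Patching at the minimal level.** -/
theorem exists_ci_free (H : Seed p O ρbar N U aux S a ord) (X₀ : Sys p O ρbar N S)
    (hlat : X₀.IsLattice a) (Y : Lift p O ρbar) (hY : Y.Cond U U ord)
    (σ : Y.R →ₐ[O] X₀.X.R) (hσ : Y.IsHom X₀.X σ) :
    (letI : Module Y.R X₀.M := Module.compHom X₀.M σ.toRingHom; Module.Free Y.R X₀.M) ∧ Function.Injective σ ∧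
    ∃ (r : ℕ) (ψ : MvPowerSeries (Fin r) O →ₐ[O] Y.R) (G : Fin r → MvPowerSeries (Fin r) O),
      Function.Surjective ψ ∧ RingHom.ker ψ = Ideal.span (Set.range G) := by
  classical
  have hp : p.Prime := Fact.out
  obtain ⟨B, hB⟩ := Levels.exists_levelData (Levels.setting_of_seed H dvd_rfl H.level_mem (Levels.latLoc_ne_bot_of_seed H))
  set L := Auto.latLoc N (1 : (ZMod N)ˣ →* Unit) O S a with hL
  obtain ⟨eM, heM⟩ := id hlat
  haveI : Module.Free O L := Module.Free.of_equiv eM
  haveI : Module.Finite O L := Module.Finite.equiv eM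
  haveI : Nontrivial L := B.nontrivial
  -- the action of `Y` on the lattice
  let actM : X₀.X.R →ₐ[O] Module.End O X₀.M := Algebra.lsmul O O X₀.M
  let ξ₀ : Y.R →ₐ[O] Module.End O L := (eM.conjAlgEquiv O).toAlgHom.comp (actM.comp σ)
  have hξ₀ : ∀ (z : Y.R) (x : X₀.M), ξ₀ z (eM x) = eM (σ z • x) := fun z x => by
    show eM (σ z • eM.symm (eM x)) = _
    rw [eM.symm_apply_apply]
  have hB₀ : ∀ (τ : GQ) (x : L), B.act (B.ρ.trace τ) x = ξ₀ (Y.ρ.trace τ) x := by
    intro τ x
    obtain ⟨x, rfl⟩ := eM.surjective x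
    rw [hξ₀, hσ]
    refine (Levels.intertwine_of_frobenius (L₁ := X₀.M) (L₂ := L) X₀.X.ρ B.ρ actM B.act eM.toLinearMap S
      (fun l hl hlS A hA φ hφ y => ?_) τ x).symm
    have hlN : ¬ l ∣ N := fun h => hlS (H.level_mem l hl h)
    refine Subtype.ext ?_
    rw [B.act_frobenius ⟨⟨l, hl⟩, hlN⟩ hlS A hA φ hφ]
    exact heM ⟨⟨⟨l, hl⟩, hlN⟩, by simpa using hlS⟩ A hA φ hφ y
  obtain ⟨r, hr⟩ := exists_tw_generators H
  -- coordinates
  set s := 2 ^ r * Module.finrank O L with hs_def
  have hs : 0 < s := Nat.mul_pos (pow_pos two_pos r) (Module.finrank_pos (R := O) (M := L))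
  let c : Module.Basis (Fin s) O (Fin (2 ^ r) → L) :=
    Module.finBasisOfFinrankEq O _ (by rw [Module.finrank_pi_fintype, Finset.sum_const,
      Finset.card_univ, Fintype.card_fin, smul_eq_mul, hs_def])
  let ξL : Y.R →ₐ[O] Module.End O (Fin (2 ^ r) → L) :=
    { toFun := fun z => LinearMap.pi fun i => (ξ₀ z).comp (LinearMap.proj i)
      map_one' := LinearMap.ext fun v => funext fun i => by
        show ξ₀ 1 (v i) = v i
        rw [map_one, Module.End.one_apply]
      map_mul' := fun z w => LinearMap.ext fun v => funext fun i => by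
        show ξ₀ (z * w) (v i) = ξ₀ z (ξ₀ w (v i))
        rw [map_mul, Module.End.mul_apply]
      map_zero' := LinearMap.ext fun v => funext fun i => by
        show ξ₀ 0 (v i) = (0 : L)
        rw [map_zero, LinearMap.zero_apply]
      map_add' := fun z w => LinearMap.ext fun v => funext fun i => by
        show ξ₀ (z + w) (v i) = ξ₀ z (v i) + ξ₀ w (v i)
        rw [map_add, LinearMap.add_apply]
      commutes' := fun o => LinearMap.ext fun v => funext fun i => by
        show ξ₀ (algebraMap O Y.R o) (v i) = o • v i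
        rw [AlgHom.commutes, Module.algebraMap_end_apply] }
  let ξ : Y.R →ₐ[O] Matrix (Fin s) (Fin s) O :=
    (LinearMap.toMatrixAlgEquiv c).toAlgHom.comp ξL
  have hξ : ∀ z v, c.equivFun (ξL z v) = Matrix.mulVec (ξ z) (c.equivFun v) := fun z v =>
    (LinearMap.toMatrix_mulVec_repr c c (ξL z) v).symm
  obtain ⟨ϖ, hϖ⟩ := IsDiscreteValuationRing.exists_irreducible O
  obtain ⟨e, he⟩ := exists_pow_le_span (O := O) (r := r) (s := s) hϖ
  -- data at each depth
  have hdata : ∀ n, ∃ (Φ : MvPowerSeries (Fin r) O →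
        Matrix (Fin s) (Fin s) (MvPowerSeries (Fin r) O))
      (ψ : MvPowerSeries (Fin r) O →ₐ[O] Y.R) (G : Fin r → MvPowerSeries (Fin r) O),
      IsPatchDatum e n ξ Φ ψ G := by
    intro n
    obtain ⟨Q, hQc, hQ, hgen⟩ := hr n
    obtain ⟨D⟩ := hB n Q hQ
    have hcondY : Y.Cond (U ∪ Q) U ord :=
      { unramified := fun l hl hlp hlR => hY.unramified l hl hlp fun h => hlR (Finset.mem_union_left _ h)
        unipotent := hY.unipotent
        flat := hY.flat
        ordinary := hY.ordinary }
    obtain ⟨Z, σX, σY, hσX, hσY, -, hZ⟩ := exists_glue H (repLift H.p_mem_maximal D.repAt) Y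
      (o := ord) (fun h => H.ordinary h) (repLift_cond H D.repAt) hcondY
    let σX' : Z.R →ₐ[O] D.T := σX
    have hσX' : ∀ τ, σX' (Z.ρ.trace τ) = D.ρ.trace τ := hσX
    obtain ⟨γ, hγ⟩ := hgen Z hZ
    let ePQ : Fin r ≃ Q := (Q.equivFinOfCardEq hQc).symm
    have hb : ∃ b : Fin s → D.V, ∀ v : D.V,
        ∃! f : Fin s → Auto.CharGrp p Q (fun _ => n + 1) → O, v = ∑ i, ∑ x, f i x • D.dia x (b i) := by
      have h := D.basis
      rw [hQc] at h
      exact h
    obtain ⟨R, _, φR, hφR, hker, _, bR, hC, hX, hlin⟩ :=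
      LL.exists_level_ring H.p_mem_maximal ePQ D.dia hb
    haveI : IsLocalHom (γ : MvPowerSeries (Fin r) O →+* Z.R) := IsLocalHom.of_surjective _ hγ
    let opZ : Z.R →+* Module.End R D.V :=
      { toFun := fun z =>
          { toFun := fun v => D.act (σX' z) v
            map_add' := fun v w => map_add _ v w
            map_smul' := fun x v => hlin (D.act (σX' z)) (fun d => D.dia_commute d _) x v }
        map_one' := LinearMap.ext fun v => by
          show D.act (σX' 1) v = v
          rw [map_one, map_one, Module.End.one_apply]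
        map_mul' := fun z w => LinearMap.ext fun v => by
          show D.act (σX' (z * w)) v = D.act (σX' z) (D.act (σX' w) v)
          rw [map_mul, map_mul, Module.End.mul_apply]
        map_zero' := LinearMap.ext fun v => by
          show D.act (σX' 0) v = 0
          rw [map_zero, map_zero, LinearMap.zero_apply]
        map_add' := fun z w => LinearMap.ext fun v => by
          show D.act (σX' (z + w)) v = D.act (σX' z) v + D.act (σX' w) v
          rw [map_add, map_add, LinearMap.add_apply] }
    have hopO : ∀ o : O, opZ (algebraMap O Z.R o) = algebraMap R _ (φR (C o)) := fun o =>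
      LinearMap.ext fun v => by
        show D.act (σX' (algebraMap O Z.R o)) v = _
        rw [AlgHom.commutes, AlgHom.commutes, Module.algebraMap_end_apply,
          Module.algebraMap_end_apply, hC]
    -- the projection
    let pL : D.V →ₗ[O] (Fin (2 ^ r) → L) :=
      (LinearMap.funLeft O L (Fin.cast (by rw [hQc] : 2 ^ r = 2 ^ Q.card))).comp D.proj
    have hpL : Function.Surjective pL := fun w => by
      obtain ⟨v, hv⟩ := D.proj_surjective fun i => w (Fin.cast (by rw [hQc]) i)
      exact ⟨v, funext fun i => congrFun hv _⟩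
    have hcompat : ∀ (z : Z.R) (v : D.V), pL (opZ z v) = ξL (σY z) (pL v) := by
      intro z
      have hz : z ∈ Algebra.adjoin O (Set.range Z.ρ.trace) := Z.adjoin_trace ▸ Algebra.mem_top
      induction hz using Algebra.adjoin_induction with
      | mem t ht =>
        obtain ⟨τ, rfl⟩ := ht
        intro v
        funext i
        show D.proj (D.act (σX' (Z.ρ.trace τ)) v) _ = ξ₀ (σY (Z.ρ.trace τ)) (D.proj v _)
        rw [hσX', hσY, D.proj_act, hB₀]
      | algebraMap o =>
        intro v
        rw [hopO, Module.algebraMap_end_apply, hC, map_smul, AlgHom.commutes, AlgHom.commutes,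
          Module.algebraMap_end_apply]
      | add z w _ _ hz hw =>
        intro v
        rw [map_add, LinearMap.add_apply, map_add, hz, hw, map_add, map_add, LinearMap.add_apply]
      | mul z w _ _ hz hw =>
        intro v
        rw [map_mul, Module.End.mul_apply, hz, hw, map_mul, map_mul, Module.End.mul_apply]
    have hy : ∀ (j : Fin r) (v : D.V), pL (φR (X j) • v) = 0 := fun j v => by
      have h : D.proj (φR (X j) • v) = 0 :=
        (D.ker_proj _).mpr (Submodule.subset_span ⟨_, v, by rw [hX]⟩)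
      show (LinearMap.funLeft O L _) (D.proj (φR (X j) • v)) = 0
      rw [h, map_zero]
    -- the characters
    have hG : ∀ j : Fin r, ∃ G : MvPowerSeries (Fin r) O, σY (γ G) = 0 ∧
        (algebraMap R (Module.End R D.V) (φR (X j)) - opZ (γ G)) *
          ((1 + opZ (γ G)) * (1 + algebraMap R (Module.End R D.V) (φR (X j))) - 1) = 0 := by
      intro j
      obtain ⟨hv, hvS, hv1, hva⟩ := hQ _ (ePQ j).2
      haveI : NeZero ((ePQ j : Q) : ℕ) := ⟨hv.ne_zero⟩
      obtain ⟨A, hA⟩ := Galois.exists_liesOverPrime hv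
      obtain ⟨φ, hφ⟩ := Galois.exists_isFrobeniusAt hv hA
      obtain ⟨u, hu⟩ := D.delta_surjective (ePQ j) (Multiplicative.ofAdd 1)
      have hd : D.delta (ePQ j) u = Pi.mulSingle (ePQ j) (Multiplicative.ofAdd 1) := by
        funext w
        rcases eq_or_ne w (ePQ j) with rfl | hw
        · rw [Pi.mulSingle_eq_same]; exact hu
        · rw [Pi.mulSingle_eq_of_ne hw, D.delta_off _ w u hw]
      obtain ⟨τ, hτ, hτu⟩ := LL.exists_inertia_cycM hv hA u
      obtain ⟨χ, χ', α, β, hχ, -, hαβ, htτ, htφ, htφτ⟩ := exists_tw_char H Z hv hvS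
        (hv1.of_dvd (dvd_pow_self p (Nat.succ_ne_zero n))) hva hA hφ hτ
      have hvp : ((ePQ j : Q) : ℕ) ≠ p := fun h => hvS (h ▸ H.p_mem)
      have hvU : ((ePQ j : Q) : ℕ) ∉ U := fun h => hvS (H.level_mem _ hv ((H.dvd_iff _ hv hvp).mpr (.inl h)))
      have hτY : Y.ρ.ρ τ = 1 := hY.unramified _ hv hvp hvU A hA τ hτ
      have hχY : σY χ = 1 := by
        refine tw_char_eq_one (χ' := σY χ') (α := σY α) (β := σY β)
          (map_sub σY α β ▸ hαβ.map σY) ?_ ?_
        · rw [← map_add, ← htτ, hσY, Y.trace_eq_two hτY]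
        · rw [← map_mul, ← map_mul, ← map_add, ← htφτ, hσY, ← map_add, ← htφ, hσY,
            GaloisRepAdic.trace, GaloisRepAdic.trace, map_mul, hτY, mul_one]
      obtain ⟨G, hG⟩ := hγ (χ - 1)
      refine ⟨G, by rw [hG, map_sub, map_one, hχY, sub_self], ?_⟩
      rw [hG, map_sub, map_one]
      set y := algebraMap R (Module.End R D.V) (φR (X j))
      set g := D.delta (ePQ j) u with hg
      -- read on additive endomorphisms
      let F : Module.End R D.V →+* Module.End ℤ D.V :=
        { toFun := fun f => f.toAddMonoidHom.toIntLinearMap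
          map_one' := rfl
          map_mul' := fun _ _ => rfl
          map_zero' := rfl
          map_add' := fun _ _ => rfl }
      have hFinj : Function.Injective F := fun f f' h => LinearMap.ext fun v => LinearMap.congr_fun h v
      refine hFinj ?_
      have hyD : ∀ v, F (1 + y) v = D.dia g v := fun v => by
        show v + y v = _
        rw [Module.algebraMap_end_apply, hX, ← hd, add_sub_cancel]
      have key := diamond_rel (F (opZ χ)) (F (opZ χ')) (F (1 + y))
        ((D.dia g⁻¹).toAddMonoidHom.toIntLinearMap)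
        (by rw [← map_mul, ← map_mul, hχ, map_one, map_one])
        (LinearMap.ext fun v => by
          show D.dia g⁻¹ (F (1 + y) v) = v
          rw [hyD, ← Module.End.mul_apply, ← map_mul, inv_mul_cancel, map_one, Module.End.one_apply])
        (by rw [← map_mul, ← map_mul]; exact congrArg F (by
          rw [mul_add, mul_one, add_mul, one_mul, Algebra.commutes]))
        (LinearMap.ext fun v => by
          rw [← map_add, ← map_add, ← htτ, LinearMap.add_apply, hyD]
          show D.act (σX' (Z.ρ.trace τ)) v = _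
          rw [hσX', D.inertia_tw (ePQ j) A hA τ hτ, hτu]
          rfl)
      rw [map_zero, ← key]
      simp only [map_mul, map_sub, map_add, map_one]
      congr 1
      · abel
      · congr 2
        abel
    choose G hG1 hG2 using hG
    obtain ⟨Φ, hΦ⟩ := exists_patchDatum_of_level hϖ hs he φR hφR hker bR hC
      (opZ.comp (γ : MvPowerSeries (Fin r) O →+* Z.R))
      (fun o => by
        show opZ (γ (C o)) = _
        rw [c_eq_algebraMap, AlgHom.commutes, hopO, c_eq_algebraMap])
      (fun i => by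
        have hm : γ (X i) ∈ maximalIdeal Z.R := by
          refine (mem_maximalIdeal _).mpr (map_nonunit (γ : MvPowerSeries (Fin r) O →+* Z.R) _ ?_)
          rw [mem_maximalIdeal, mem_nonunits_iff, isUnit_iff_constantCoeff, constantCoeff_X]
          exact not_isUnit_zero
        obtain ⟨N₁, hN₁⟩ := Auto.exists_pow_maximalIdeal_le_map O Z.R
        have h := hN₁ (Ideal.pow_mem_pow hm N₁)
        rw [hϖ.maximalIdeal_eq, Ideal.map_span, Set.image_singleton, Ideal.mem_span_singleton] at h
        obtain ⟨u, hu⟩ := h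
        refine ⟨N₁, opZ u, ?_⟩
        show opZ (γ (X i)) ^ N₁ = _
        rw [← map_pow, hu, map_mul, hopO])
      (c.equivFun.toLinearMap.comp pL) (c.equivFun.surjective.comp hpL)
      (fun j v => by
        show c.equivFun (pL (φR (X j) • v)) = 0
        rw [hy, map_zero])
      ξ (σY.comp γ) (hσY.surjective.comp hγ) G hG1
      (fun f v => by
        show c.equivFun (pL (opZ (γ f) v)) = _
        rw [hcompat, hξ]
        rfl)
      hG2
    exact ⟨Φ, σY.comp γ, G, hΦ⟩
  obtain ⟨Φ, ψ, G, hψ, hG, hrel, hred, hcont⟩ := exists_patched_limit e ξ Y.residue_surjective hdata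
  have hfin := free_of_limit hs e ξ Φ ψ G hψ hG hrel hred hcont
  letI iF : Module Y.R (Fin s → O) :=
    Module.compHom _ (Matrix.toLinAlgEquiv'.toAlgHom.comp ξ).toRingHom
  obtain ⟨hfree, hann, hker⟩ := hfin
  haveI : Module.Free Y.R (Fin s → O) := hfree
  letI iL : Module Y.R L := Module.compHom _ ξ₀.toRingHom
  letI iM : Module Y.R X₀.M := Module.compHom X₀.M σ.toRingHom
  haveI : IsScalarTower O Y.R L := IsScalarTower.of_algebraMap_smul fun o x => by
    show ξ₀ (algebraMap O Y.R o) x = o • x
    rw [AlgHom.commutes, Module.algebraMap_end_apply]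
  haveI : Module.Finite Y.R L := Module.Finite.of_restrictScalars_finite O Y.R L
  let eC : (Fin (2 ^ r) → L) ≃ₗ[Y.R] (Fin s → O) :=
    { c.equivFun.toAddEquiv with map_smul' := fun z v => hξ z v }
  haveI : Module.Free Y.R (Fin (2 ^ r) → L) := Module.Free.of_equiv eC.symm
  haveI : Module.Projective Y.R L :=
    Module.Projective.of_split (LinearMap.single Y.R (fun _ : Fin (2 ^ r) => L) ⟨0, pow_pos two_pos r⟩)
      (LinearMap.proj (⟨0, pow_pos two_pos r⟩ : Fin (2 ^ r))) (LinearMap.ext fun x => by simp)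
  haveI : Module.Free Y.R L := Module.free_of_flat_of_isLocalRing (R := Y.R) (P := L)
  let eY : L ≃ₗ[Y.R] X₀.M :=
    ({ eM.toAddEquiv with map_smul' := fun z x => (hξ₀ z x).symm } : X₀.M ≃ₗ[Y.R] L).symm
  refine ⟨Module.Free.of_equiv eY, ?_, r, ψ, G, hψ, hker⟩
  rw [injective_iff_map_eq_zero]
  intro z hz
  have h : z ∈ Module.annihilator Y.R (Fin s → O) := Module.mem_annihilator.mpr fun w => by
    obtain ⟨v, rfl⟩ := c.equivFun.surjective w
    show (ξ z).mulVec (c.equivFun v) = 0
    rw [← hξ, LinearEquiv.map_eq_zero_iff]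
    funext i
    obtain ⟨x, hx⟩ := eM.surjective (v i)
    show ξ₀ z (v i) = 0
    rw [← hx, hξ₀, hz, zero_smul, map_zero]
  rwa [hann, Submodule.mem_bot] at h

/-- Every minimal lift over the minimal system has `d · len Φ ≤ len Ω`. -/
theorem cotLen_le_omegaLen (H : Seed p O ρbar N U aux S a ord) (X₀ : Sys p O ρbar N S)
    (hlat : X₀.IsLattice a) (hcond : X₀.X.Cond U U ord) (g : X₀.X.R →ₐ[O] O)
    (Y : Lift p O ρbar) (hY : Y.Cond U U ord) (σ : Y.R →ₐ[O] X₀.X.R) (hσ : Y.IsHom X₀.X σ) :
    (Module.finrank O (coEigen g X₀.M) : ℕ∞) * cotLen (g.comp σ) ≤ omegaLen g X₀.M := by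
  obtain ⟨hfree, hinj, r, ψ, G, hψ, hker⟩ := exists_ci_free H X₀ hlat Y hY σ hσ
  letI iM : Module Y.R X₀.M := Module.compHom X₀.M σ.toRingHom
  haveI : IsScalarTower O Y.R X₀.M := IsScalarTower.of_algebraMap_smul fun o x => by
    show σ (algebraMap O Y.R o) • x = o • x
    rw [σ.commutes, algebraMap_smul]
  haveI : Module.Free Y.R X₀.M := hfree
  haveI : Module.Finite Y.R X₀.M := Module.Finite.of_restrictScalars_finite O Y.R X₀.M
  haveI : Module.IsTorsionFree O Y.R := by
    refine Module.isTorsionFree_iff_smul_eq_zero.mpr fun o z hz => or_iff_not_imp_left.mpr fun ho => ?_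
    refine hinj ((Submodule.mem_bot X₀.X.R).mp (X₀.faithful ▸ Module.mem_annihilator.mpr fun m => ?_)
      |>.trans (map_zero σ).symm)
    have h1 : o • (σ z • m) = 0 := by
      rw [← smul_assoc, ← map_smul, hz, map_zero, zero_smul]
    exact (smul_eq_zero.mp h1).resolve_left ho
  set π := g.comp σ with hπ
  have hsurj := hσ.surjective
  have hη : eta π ≠ ⊥ := fun hb => by
    obtain ⟨x, hx, hx'⟩ := X₀.sep g
    obtain ⟨x, rfl⟩ := hsurj x
    refine hx ((Submodule.mem_bot O).mp (hb ▸ ?_))
    refine Ideal.mem_map_of_mem (x := x) π.toRingHom (Submodule.mem_annihilator.mpr fun t ht => ?_)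
    refine hinj ?_
    rw [smul_eq_mul, map_mul, map_zero]
    exact hx' (σ t) ht
  obtain ⟨ψ', G', hψ', hψX, hker'⟩ := exists_recentre π ψ hψ G hker
  have hcot := cotLen_le_length_of_ci π ψ' hψ' hψX G' hker'
  have hco : coEigen π X₀.M = coEigen g X₀.M := by
    ext f
    refine ⟨fun hf y m => ?_, fun hf z m => hf (σ z) m⟩
    obtain ⟨z, rfl⟩ := hsurj y
    exact hf z m
  have heig : eigen π X₀.M = eigen g X₀.M := by
    ext m
    refine ⟨fun hm y => ?_, fun hm z => hm (σ z)⟩
    obtain ⟨z, rfl⟩ := hsurj y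
    exact hm z
  rw [← omegaLen_congr heig hco, ← hco]
  exact (mul_le_mul' le_rfl hcot).trans (omegaLen_ge_of_free π hη X₀.M)

end Fermat.Agent.R59
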